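import Fermat.Agent.GR.B.MerLevel
import Fermat.Agent.GR.A.Mod
import Fermat.Agent.GR.A.ModFun

/-!
# GR-B, Kummer side, file K3: `FF ℂ N` is the field of fractions of the ring of holomorphic modular
functions
-/

set_option autoImplicit false

open UpperHalfPlane ModularCurve Matrix.SpecialLinearGroup CongruenceSubgroup
open scoped MatrixGroups Manifold

namespace Fermat.Agent.GR.B

open Fermat.Agent.S24 Fermat.Agent.S28 Fermat.Agent.GR.A

variable {N : ℕ}

theorem IsModFun.const (c : ℂ) : IsModFun N (fun _ => c) :=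
  GR.A.isModFun_const N c

theorem IsModFun.add {f g : ℍ → ℂ} (hf : IsModFun N f) (hg : IsModFun N g) :
    IsModFun N (f + g) :=
  GR.A.IsModFun.add hf hg

theorem IsModFun.mul {f g : ℍ → ℂ} (hf : IsModFun N f) (hg : IsModFun N g) :
    IsModFun N (f * g) :=
  GR.A.IsModFun.mul hf hg

theorem IsModFun.pow {f : ℍ → ℂ} (hf : IsModFun N f) (n : ℕ) : IsModFun N (f ^ n) :=
  GR.A.IsModFun.pow hf n

/-- a holomorphic modular function has a `q`-expansion. -/
theorem IsModFun.exists_isExp [NeZero N] {f : ℍ → ℂ} (hf : IsModFun N f) :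
    ∃ s : LaurentSeries ℂ, IsExp 1 f s :=
  ⟨_, GR.A.IsModFun.isExp hf⟩

/-- (M1) the `q`-expansion of a holomorphic modular function lies in the function field. -/
theorem IsModFun.mem_FF [NeZero N] {f : ℍ → ℂ} (hf : IsModFun N f) {s : LaurentSeries ℂ}
    (hs : IsExp 1 f s) : s ∈ FF ℂ N := by
  rw [hs.unique one_pos (GR.A.IsModFun.isExp hf)]
  exact GR.A.IsModFun.qexp_mem hf

theorem ModFrac_jdfun_eq (d : ℕ) [NeZero d] : S24.jdfun d = S28.jdF d :=
  funext fun τ => (GR.A.mod_jdF_eq_jdfun d τ).symm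

/-- `j(dτ)`, `d ∣ N`, is a holomorphic modular function for `Γ₀(N)`. -/
theorem isModFun_jdfun [NeZero N] (d : ℕ) [NeZero d] (hd : d ∣ N) : IsModFun N (S24.jdfun d) := by
  rw [ModFrac_jdfun_eq]
  exact GR.A.isModFun_jdF N d hd

theorem isExp_jdfun (d : ℕ) [NeZero d] : IsExp 1 (S24.jdfun d) (qExpand ℂ d (jqModC ℂ)) := by
  rw [ModFrac_jdfun_eq, ← GR.A.qexp_jdF d d dvd_rfl]
  exact GR.A.IsModFun.isExp (GR.A.isModFun_jdF d d dvd_rfl)

/-- every element of the function field is a quotient of expansions of holomorphic modular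
functions. -/
theorem exists_modFun_frac [NeZero N] {u : LaurentSeries ℂ} (hu : u ∈ FF ℂ N) :
    ∃ (a b : ℍ → ℂ) (fa fb : LaurentSeries ℂ), IsModFun N a ∧ IsModFun N b ∧ IsExp 1 a fa ∧
      IsExp 1 b fb ∧ fb ≠ 0 ∧ u * fb = fa := by
  obtain ⟨a, ha, b, hb, hab⟩ := IntermediateField.mem_adjoin_iff_div.mp hu
  by_cases hb0 : b = 0
  · refine ⟨0, 1, 0, 1, GR.A.isModFun_zero N, GR.A.isModFun_one N, isExp_zero 1, isExp_one 1,
      one_ne_zero, ?_⟩
    rw [hab, hb0, div_zero, zero_mul]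
  · obtain ⟨fa, hfa, rfl⟩ := GR.A.exists_isModFun_of_mem_adjoin N ha
    obtain ⟨fb, hfb, rfl⟩ := GR.A.exists_isModFun_of_mem_adjoin N hb
    exact ⟨fa, fb, _, _, hfa, hfb, GR.A.IsModFun.isExp hfa, GR.A.IsModFun.isExp hfb, hb0, by
      rw [hab, div_mul_cancel₀ _ hb0]⟩

end Fermat.Agent.GR.B
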