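import Fermat.Agent.GR.B.Reps
import Fermat.Prelude.Sol.S_ModularForm_heckeT_slash_eq_self_of_mem_Gamma0

/-!
# GR-B, file 2: the correspondences `T_p` (`p ∤ N`) and `U_p` (`p ∣ N`)
-/

set_option autoImplicit false

open CongruenceSubgroup Matrix.SpecialLinearGroup UpperHalfPlane
open scoped MatrixGroups
open P2MW.S_ModularForm_heckeT_slash_eq_self_of_mem_Gamma0.ModularForm.HeckeSlashInvariance

namespace Fermat.Agent.GR.B

variable {N : ℕ}

theorem dvd_of_mem_Gamma0 (γ : Gamma0 N) : (N : ℤ) ∣ (γ : SL(2, ℤ)) 1 0 :=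
  (ZMod.intCast_zmod_eq_zero_iff_dvd _ _).mp (Gamma0_mem.mp γ.2)

theorem mem_Gamma0_of_dvd {g : SL(2, ℤ)} (h : (N : ℤ) ∣ g 1 0) : g ∈ Gamma0 N :=
  Gamma0_mem.mpr ((ZMod.intCast_zmod_eq_zero_iff_dvd _ _).mpr h)

theorem redMatrix_mul (p : ℕ) [Fact p.Prime] (g g' : SL(2, ℤ)) :
    redMatrix p (g * g') = redMatrix p g' * redMatrix p g := by
  apply Matrix.GeneralLinearGroup.ext
  intro i j
  rw [Matrix.GeneralLinearGroup.coe_mul, Matrix.mul_apply, Fin.sum_univ_two]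
  fin_cases i <;> fin_cases j <;>
    simp [Matrix.SpecialLinearGroup.coe_mul, Matrix.mul_apply, Fin.sum_univ_two] <;> ring

/-- The correspondence `T_p`, `p ∤ N`. Representatives `(1 j; 0 p)`, `j ∈ ℤ/p`, and `(p 0; 0 1)`. -/
noncomputable def repsT (p : ℕ) [Fact p.Prime] (hpN : ¬ p ∣ N) : Reps N where
  ι := OnePoint (ZMod p)
  fin := inferInstance
  α := heckeRep p
  det_pos := by
    intro x
    induction x using OnePoint.rec with
    | infty => exact ModularForm.det_heckeDiagMatrix_pos p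
    | coe j => exact ModularForm.det_heckeMatrix_pos p _
  perm γ := MulAction.toPerm (redMatrix p (γ : SL(2, ℤ)))
  coc γ x := ⟨(heckeRep_mul hpN (γ : SL(2, ℤ)) (dvd_of_mem_Gamma0 γ) x).choose,
    mem_Gamma0_of_dvd (heckeRep_mul hpN (γ : SL(2, ℤ)) (dvd_of_mem_Gamma0 γ) x).choose_spec.1⟩
  rel γ x := (heckeRep_mul hpN (γ : SL(2, ℤ)) (dvd_of_mem_Gamma0 γ) x).choose_spec.2
  perm_mul γ γ' x := by
    simp only [MulAction.toPerm_apply, Subgroup.coe_mul, redMatrix_mul, mul_smul]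

theorem dvd_of_dvd_of_mem_Gamma0 {p : ℕ} (hpN : p ∣ N) (γ : Gamma0 N) :
    (p : ℤ) ∣ (γ : SL(2, ℤ)) 1 0 :=
  (Int.natCast_dvd_natCast.mpr hpN).trans (dvd_of_mem_Gamma0 γ)

theorem cast_eq_zero_of_mem_Gamma0 {p : ℕ} (hpN : p ∣ N) (γ : Gamma0 N) :
    (((γ : SL(2, ℤ)) 1 0 : ℤ) : ZMod p) = 0 :=
  (ZMod.intCast_zmod_eq_zero_iff_dvd _ _).mpr (dvd_of_dvd_of_mem_Gamma0 hpN γ)

/-- The correspondence `U_p`, `p ∣ N`. Representatives `(1 j; 0 p)`, `j ∈ ℤ/p`. -/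
noncomputable def repsU (p : ℕ) [NeZero p] (hpN : p ∣ N) : Reps N where
  ι := ZMod p
  fin := inferInstance
  α x := ModularForm.heckeMatrix p x.val
  det_pos x := ModularForm.det_heckeMatrix_pos p _
  perm γ := affinePerm (γ : SL(2, ℤ)) (cast_eq_zero_of_mem_Gamma0 hpN γ)
  coc γ x := ⟨(heckeMatrix_mul_of_dvd (γ : SL(2, ℤ)) (dvd_of_dvd_of_mem_Gamma0 hpN γ) x).choose,
    mem_Gamma0_of_dvd (by
      rw [(heckeMatrix_mul_of_dvd (γ : SL(2, ℤ)) (dvd_of_dvd_of_mem_Gamma0 hpN γ) x).choose_spec.1]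
      exact dvd_mul_of_dvd_right (dvd_of_mem_Gamma0 γ) _)⟩
  rel γ x := (heckeMatrix_mul_of_dvd (γ : SL(2, ℤ)) (dvd_of_dvd_of_mem_Gamma0 hpN γ) x).choose_spec.2
  perm_mul γ γ' x := by
    have h1 := unit_of_apply_one_zero_eq_zero (γ : SL(2, ℤ)) (cast_eq_zero_of_mem_Gamma0 hpN γ)
    have h2 := cast_eq_zero_of_mem_Gamma0 hpN γ
    have h3 := cast_eq_zero_of_mem_Gamma0 hpN γ'
    simp only [affinePerm_apply, Subgroup.coe_mul, Matrix.SpecialLinearGroup.coe_mul,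
      Matrix.mul_apply, Fin.sum_univ_two]
    push_cast
    rw [h2]
    linear_combination ((((γ' : SL(2, ℤ)) 1 1 : ℤ) : ZMod p) * (((γ' : SL(2, ℤ)) 0 1 : ℤ) : ZMod p)) * h1

@[simp] theorem repsT_α (p : ℕ) [Fact p.Prime] (hpN : ¬ p ∣ N) (x : OnePoint (ZMod p)) :
    (repsT p hpN).α x = heckeRep p x := rfl

@[simp] theorem repsU_α (p : ℕ) [NeZero p] (hpN : p ∣ N) (x : ZMod p) :
    (repsU p hpN).α x = ModularForm.heckeMatrix p x.val := rfl

end Fermat.Agent.GR.B
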