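import Fermat.Agent.GR.B.HeckeFun
import Fermat.Agent.GR.F.FormalNorm

/-!
# GR-B, Kummer side, file K5: `q`-expansion of the multiplicative Hecke operators
-/

set_option autoImplicit false

open UpperHalfPlane ModularCurve Matrix.SpecialLinearGroup CongruenceSubgroup
open scoped MatrixGroups Manifold

namespace Fermat.Agent.GR.B

open Fermat.Agent.S24 Fermat.Agent.S28 Fermat.Agent.GR.A

variable {N : ℕ}

theorem isPrimitiveRoot_rootU (p : ℕ) [NeZero p] : IsPrimitiveRoot (rootU 1 p) p := by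
  rw [← IsPrimitiveRoot.coe_units_iff]
  have h := Complex.isPrimitiveRoot_exp p (NeZero.ne p)
  have e : ((rootU 1 p : ℂˣ) : ℂ) = Complex.exp (2 * Real.pi * Complex.I / p) := by
    simp [rootU]
  rw [e]
  exact h

theorem heckeMatrix_smul_eq_affH (p : ℕ) [NeZero p] (j : ℕ) (τ : ℍ) :
    ModularForm.heckeMatrix p j • τ = affH 1 j p τ := by
  apply UpperHalfPlane.ext
  rw [ModularForm.coe_heckeMatrix_smul (NeZero.ne p), coe_affH _ one_pos
    (Nat.pos_of_ne_zero (NeZero.ne p))]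
  simp

theorem heckeDiagMatrix_smul_eq_affH (p : ℕ) [NeZero p] (τ : ℍ) :
    ModularForm.heckeDiagMatrix p • τ = affH p 0 1 τ := by
  apply UpperHalfPlane.ext
  rw [ModularForm.coe_heckeDiagMatrix_smul (NeZero.ne p), coe_affH _
    (Nat.pos_of_ne_zero (NeZero.ne p)) one_pos]
  simp

theorem HeckeExp_rootU_pow (p : ℕ) (j : ℕ) : rootU j p = rootU 1 p ^ j := by
  apply Units.ext
  simp only [rootU, Units.val_mk0, Units.val_pow_eq_pow_val, ← Complex.exp_nat_mul]
  congr 1
  push_cast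
  ring

/-- `f((τ+j)/p)` has the expansion `s(ζ^j t)`, `t = q^{1/p}`. -/
theorem isExp_comp_heckeMatrix (p : ℕ) [NeZero p] (j : ℕ) {f : ℍ → ℂ} {s : LaurentSeries ℂ}
    (H : IsExp 1 f s) :
    IsExp p (fun τ => f (ModularForm.heckeMatrix p j • τ)) (scaleHom (rootU 1 p ^ j) s) := by
  have h1 := H.comp_affH (N := p) (a := 1) (δ := p) (m := 1) (j : ℤ)
    (Nat.pos_of_ne_zero (NeZero.ne p)) one_pos (Nat.pos_of_ne_zero (NeZero.ne p)) (by ring)
  have e : substL (rootU (j : ℤ) p) 1 s = scaleHom (rootU 1 p ^ j) s := by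
    ext k
    have := substL_coeff_mul (rootU (j : ℤ) p) 1 s k
    rw [Nat.cast_one, one_mul] at this
    rw [this, scaleHom_coeff, HeckeExp_rootU_pow]
  rw [e] at h1
  simpa only [heckeMatrix_smul_eq_affH] using h1

/-- `f(p τ)` has the expansion `s(q^p)`. -/
theorem isExp_comp_heckeDiagMatrix (p : ℕ) [NeZero p] {f : ℍ → ℂ} {s : LaurentSeries ℂ}
    (H : IsExp 1 f s) :
    IsExp 1 (fun τ => f (ModularForm.heckeDiagMatrix p • τ)) (qExpand ℂ p s) := by
  have h1 := H.comp_affH (N := 1) (a := p) (δ := 1) (m := p) 0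
    one_pos (Nat.pos_of_ne_zero (NeZero.ne p)) one_pos (by ring)
  have e : rootU 0 1 = 1 := by
    apply Units.ext
    simp [rootU]
  rw [e, substL_one] at h1
  simpa only [heckeDiagMatrix_smul_eq_affH] using h1

theorem HeckeExp_prod_zmod {M : Type*} [CommMonoid M] (p : ℕ) [NeZero p] (g : ℕ → M) :
    ∏ x : ZMod p, g x.val = ∏ j ∈ Finset.range p, g j := by
  refine Finset.prod_bij (fun x _ => x.val) ?_ ?_ ?_ ?_
  · intro x _
    exact Finset.mem_range.2 (ZMod.val_lt x)
  · intro x _ y _ h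
    exact ZMod.val_injective p h
  · intro j hj
    refine ⟨(j : ZMod p), Finset.mem_univ _, ?_⟩
    exact ZMod.val_cast_of_lt (Finset.mem_range.1 hj)
  · intro x _
    rfl

theorem HeckeExp_isExp_prod (p : ℕ) [NeZero p] {f : ℍ → ℂ} {s : LaurentSeries ℂ}
    (H : IsExp 1 f s) :
    IsExp 1 (fun τ => ∏ x : ZMod p, f (ModularForm.heckeMatrix p x.val • τ))
      (normT p (rootU 1 p) s) := by
  apply isExp_one_of_qExpand (ℓ := p)
  rw [qExpand_normT p _ (isPrimitiveRoot_rootU p)]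
  have h1 := IsExp.prod (N := p) (Finset.range p)
    (fun j τ => f (ModularForm.heckeMatrix p j • τ)) (fun j => scaleHom (rootU 1 p ^ j) s)
    (fun j _ => isExp_comp_heckeMatrix p j H)
  have e : (fun τ => ∏ x : ZMod p, f (ModularForm.heckeMatrix p x.val • τ)) =
      ∏ j ∈ Finset.range p, (fun τ => f (ModularForm.heckeMatrix p j • τ)) := by
    funext τ
    rw [Finset.prod_apply]
    exact HeckeExp_prod_zmod p (fun j => f (ModularForm.heckeMatrix p j • τ))
  rw [e]
  exact h1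

theorem isExp_mulFun_repsU (p : ℕ) [NeZero p] (hpN : p ∣ N) {f : ℍ → ℂ} {s : LaurentSeries ℂ}
    (H : IsExp 1 f s) : IsExp 1 ((repsU p hpN).mulFun f) (normT p (rootU 1 p) s) :=
  HeckeExp_isExp_prod p H

theorem isExp_mulFun_repsT (p : ℕ) [Fact p.Prime] (hpN : ¬ p ∣ N) {f : ℍ → ℂ}
    {s : LaurentSeries ℂ} (H : IsExp 1 f s) :
    IsExp 1 ((repsT p hpN).mulFun f) (heckeMulT p (rootU 1 p) s) := by
  have hp : p.Prime := Fact.out
  have : NeZero p := ⟨hp.ne_zero⟩
  have h1 := (isExp_comp_heckeDiagMatrix p H).mul (HeckeExp_isExp_prod p H)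
  have e : (repsT p hpN).mulFun f = (fun τ => f (ModularForm.heckeDiagMatrix p • τ)) *
      (fun τ => ∏ x : ZMod p, f (ModularForm.heckeMatrix p x.val • τ)) := by
    funext τ
    rw [Reps.mulFun_apply, Pi.mul_apply]
    exact Fintype.prod_option (fun x : OnePoint (ZMod p) => f ((repsT p hpN).α x • τ))
  rw [e]
  exact h1

end Fermat.Agent.GR.B
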