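import Fermat.Agent.GR.B.Concrete
import Fermat.Prelude.Def_CuspForm_HeckeAlgebra
import Fermat.Prelude.Def_FLTPrelim_Modularity

/-!
# GR-B, file 6a: definitions for the Hecke-equivariant Eichler-Shimura isomorphism
-/

set_option autoImplicit false

open CongruenceSubgroup Matrix.SpecialLinearGroup UpperHalfPlane ModularCurve ModularCurve.Period
open scoped MatrixGroups ModularForm

namespace Fermat.Agent.GR.B

variable (N : ℕ) [NeZero N]

/-- the `p`-th Hecke correspondence: `U_p` if `p ∣ N`, `T_p` otherwise. -/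
noncomputable def repsP (p : ℕ) (hp : p.Prime) : Reps N :=
  if h : p ∣ N then (haveI : NeZero p := ⟨hp.ne_zero⟩; repsU p h)
  else (haveI : Fact p.Prime := ⟨hp⟩; repsT p h)

/-- the `p`-th Hecke operator on cusp forms of weight 2: `U_p` if `p ∣ N`, `T_p` otherwise. -/
noncomputable def heckeP (p : ℕ) (hp : p.Prime) : Module.End ℂ (CuspForm (Gamma0 N) 2) :=
  if h : p ∣ N then CuspForm.heckeULin 2 h else CuspForm.heckeTLin 2 hp h

theorem heckeP_of_dvd {p : ℕ} (hp : p.Prime) (h : p ∣ N) :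
    heckeP N p hp = CuspForm.heckeULin 2 h := dif_pos h

theorem heckeP_of_not_dvd {p : ℕ} (hp : p.Prime) (h : ¬ p ∣ N) :
    heckeP N p hp = CuspForm.heckeTLin 2 hp h := dif_neg h

/-! ### eigenspaces -/

/-- simultaneous eigenspace of all `T_p`, `U_p` in `S₂(Γ₀(N))`. -/
def cuspEigen (lam : ℕ → ℂ) : Submodule ℂ (CuspForm (Gamma0 N) 2) where
  carrier := {f | ∀ (p : ℕ) (hp : p.Prime), heckeP N p hp f = lam p • f}
  zero_mem' := by intro p hp; simp
  add_mem' := by
    intro f g hf hg p hp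
    rw [map_add, hf p hp, hg p hp, smul_add]
  smul_mem' := by
    intro c f hf p hp
    rw [map_smul, hf p hp, smul_comm]

/-- simultaneous eigenspace in the parabolic homs, with sign `ε` for the involution. -/
def homEigen (lam : ℕ → ℂ) (ε : ℂ) : Submodule ℂ (Additive (Gamma0 N) →+ ℂ) where
  carrier := {φ | φ ∈ parabolicHoms ℂ (Gamma0 N) ℂ ∧
    (∀ (p : ℕ) (hp : p.Prime), (repsP N p hp).op ℂ φ = lam p • φ) ∧
    charInvolution N ℂ ℂ φ = ε • φ}
  zero_mem' := by
    refine ⟨Submodule.zero_mem _, ?_, ?_⟩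
    · intro p hp; simp
    · simp
  add_mem' := by
    rintro φ ψ ⟨h1, h2, h3⟩ ⟨k1, k2, k3⟩
    refine ⟨Submodule.add_mem _ h1 k1, ?_, ?_⟩
    · intro p hp
      rw [map_add, h2 p hp, k2 p hp, smul_add]
    · rw [map_add, h3, k3, smul_add]
  smul_mem' := by
    rintro c φ ⟨h1, h2, h3⟩
    refine ⟨Submodule.smul_mem _ c h1, ?_, ?_⟩
    · intro p hp
      have := (repsP N p hp).opLin ℂ ℂ |>.map_smul c φ
      simp only [Reps.opLin_apply] at this
      rw [this, h2 p hp, smul_comm]
    · rw [map_smul, h3, smul_comm]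

end Fermat.Agent.GR.B
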