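import Fermat.Agent.GR.B.Kills
import Fermat.Agent.GR.B.ESDefs

/-!
# GR-B, file 7a: the lattice `Λ = Hom_par(Γ₀(N), ℤ)` with its Hecke operators (definitions)
-/

set_option autoImplicit false

open CongruenceSubgroup Matrix.SpecialLinearGroup UpperHalfPlane ModularCurve ModularCurve.Period
open scoped MatrixGroups

namespace Fermat.Agent.GR.B

variable {N : ℕ}

/-- `ψ` kills the elements of finite order and the parabolic elements
(= `Lib.EllPar.KillsEllPar`, unfolded). -/
def Kills {B : Type*} [AddCommGroup B] (ψ : Additive (Gamma0 N) →+ B) : Prop :=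
  ∀ γ : Gamma0 N, (IsOfFinOrder (γ : SL(2, ℤ)) ∨
    ((γ : SL(2, ℤ)) : Matrix (Fin 2) (Fin 2) ℤ).trace ^ 2 = 4) → ψ (Additive.ofMul γ) = 0

theorem Reps.op_Kills (H : Reps N) {M : Type*} [AddCommGroup M] {φ : Additive (Gamma0 N) →+ M}
    (hφ : Kills φ) : Kills (H.op M φ) :=
  fun γ hγ => H.op_kills φ hφ γ hγ

/-- `Γ₀(N)^ab / ⟨elliptic, parabolic⟩` is free with dual basis `Φ` (delivered by `Lib/EllPar`). -/
structure UnivBasis (N : ℕ) where
  r : ℕ
  Φ : Fin r → (Additive (Gamma0 N) →+ ℤ)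
  kills : ∀ i, Kills (Φ i)
  univ : ∀ (B : Type) [AddCommGroup B] (ψ : Additive (Gamma0 N) →+ B), Kills ψ →
    ∃! b : Fin r → B, ∀ γ, ψ γ = ∑ i, Φ i γ • b i

variable (N)

/-- The lattice `Λ = Hom_par(Γ₀(N), ℤ)`. -/
abbrev Lam : Type := ↥(parabolicHoms ℤ (Gamma0 N) ℤ)

variable {N}

/-- A Hecke correspondence acting on `Λ`. -/
noncomputable def opLam (H : Reps N) : Module.End ℤ (Lam N) :=
  (H.opLin ℤ ℤ).restrict (fun φ hφ => H.op_isParabolicHom φ hφ)

@[simp] theorem coe_opLam (H : Reps N) (x : Lam N) :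
    ((opLam H x : Lam N) : Additive (Gamma0 N) →+ ℤ) = H.op ℤ x := rfl

variable (N)

/-- The involution `γ ↦ J γ J` acting on `Λ`. -/
noncomputable def involLam : Module.End ℤ (Lam N) :=
  (charInvolution N ℤ ℤ).restrict (fun _ hφ => charInvolution_mem_parabolicHoms N ℤ ℤ hφ)

@[simp] theorem coe_involLam (x : Lam N) :
    ((involLam N x : Lam N) : Additive (Gamma0 N) →+ ℤ) = charInvolution N ℤ ℤ x := rfl

/-- The action of complex conjugation on `Λ` (`χ_{c u} = conj ∘ χ_u ∘ J`, additively `- ι`). -/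
noncomputable def conjLam : Module.End ℤ (Lam N) := - involLam N

/-- change of coefficients `ℤ → B`, `1 ↦ b`... here: post-composition with `ℤ → B`. -/
noncomputable def castHom (B : Type*) [AddCommGroupWithOne B] (x : Lam N) :
    Additive (Gamma0 N) →+ B :=
  (Int.castAddHom B).comp (x : Additive (Gamma0 N) →+ ℤ)

@[simp] theorem castHom_apply (B : Type*) [AddCommGroupWithOne B] (x : Lam N)
    (γ : Additive (Gamma0 N)) :
    castHom N B x γ = (((x : Additive (Gamma0 N) →+ ℤ) γ : ℤ) : B) := rfl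

end Fermat.Agent.GR.B
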