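import Fermat.Agent.GR.A.ModDefs
import Fermat.Agent.S28.An.Dict
import Fermat.Agent.S28.An.Subst
import Fermat.Agent.GR.F.Formal

/-!
# GR-B, Kummer side, file K1: the two languages for expansions at `∞` and change of level

`S28.IsExp h f s` (convergent Laurent expansion in `t = q^{1/h}` on all of `ℍ`) is the same as
`f ∈ S24.MerInf h` with `S24.laurentHom h f = s`.
-/

set_option autoImplicit false

open UpperHalfPlane ModularCurve
open scoped MatrixGroups Manifold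

namespace Fermat.Agent.GR.B

open Fermat.Agent.S24 Fermat.Agent.S28

theorem MerLevel_exists_bound (L : LaurentSeries ℂ) :
    ∃ m : ℕ, ∀ k : ℤ, k < -(m : ℤ) → L.coeff k = 0 := by
  refine ⟨(-L.order).toNat, fun k hk => HahnSeries.coeff_eq_zero_of_lt_order ?_⟩
  have := Int.self_le_toNat (-L.order)
  omega

/-- bridge, direction 1. -/
theorem mem_MerInf_of_isExp {h : ℕ} [NeZero h] {f : ℍ → ℂ} {s : LaurentSeries ℂ}
    (H : IsExp h f s) : f ∈ MerInf h := by
  obtain ⟨m, hm⟩ := MerLevel_exists_bound s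
  refine S24.mem_MerInf_of_hasSum h f s m fun τ => ?_
  have h1 := H.dictB_hasSum_nat (-(m : ℤ)) hm τ
  have e1 : (fun n : ℕ => s.coeff ((n : ℤ) - m) * Function.Periodic.qParam (h : ℝ) (τ : ℂ) ^ n) =
      fun n : ℕ => s.coeff (-(m : ℤ) + n) • Function.Periodic.qParam (h : ℝ) (τ : ℂ) ^ n := by
    funext n
    rw [smul_eq_mul]
    congr 2
    ring
  rw [e1]
  rw [neg_neg, zpow_natCast] at h1
  exact h1

/-- bridge, direction 2. -/
theorem isExp_laurentHom {h : ℕ} [NeZero h] (f : MerInf h) :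
    IsExp h (f : ℍ → ℂ) (laurentHom h f) := by
  intro τ
  obtain ⟨m, hm⟩ := MerLevel_exists_bound (laurentHom h f)
  have h1 := S24.hasSum_laurentHom h f m hm τ
  have hq : Function.Periodic.qParam (h : ℝ) (τ : ℂ) ≠ 0 := Function.Periodic.qParam_ne_zero _
  have h2 := h1.mul_right ((Function.Periodic.qParam (h : ℝ) (τ : ℂ) ^ m)⁻¹)
  have hinj : Function.Injective (fun n : ℕ => (n : ℤ) - m) := by
    intro a b hab
    simpa using hab
  rw [← hinj.hasSum_iff]
  · have e1 : ((fun k : ℤ => (laurentHom h f).coeff k * tParam h τ ^ k) ∘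
        fun n : ℕ => (n : ℤ) - m) = fun i : ℕ => (laurentHom h f).coeff ((i : ℤ) - m) *
          Function.Periodic.qParam (h : ℝ) (τ : ℂ) ^ i *
            (Function.Periodic.qParam (h : ℝ) (τ : ℂ) ^ m)⁻¹ := by
      funext n
      simp only [Function.comp_apply, tParam]
      rw [zpow_sub₀ hq, zpow_natCast, zpow_natCast]
      ring
    have e2 : (f : ℍ → ℂ) τ = (f : ℍ → ℂ) τ * Function.Periodic.qParam (h : ℝ) (τ : ℂ) ^ m *
        (Function.Periodic.qParam (h : ℝ) (τ : ℂ) ^ m)⁻¹ := by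
      field_simp
    rw [e1, e2]
    exact h2
  · intro k hk
    have : k < -(m : ℤ) := by
      by_contra hlt
      push Not at hlt
      exact hk ⟨(k + m).toNat, by simp only; omega⟩
    rw [hm k this, zero_mul]

/-- bridge, direction 1 (value). -/
theorem laurentHom_eq_of_isExp {h : ℕ} [NeZero h] {f : ℍ → ℂ} {s : LaurentSeries ℂ}
    (H : IsExp h f s) : laurentHom h ⟨f, mem_MerInf_of_isExp H⟩ = s :=
  (isExp_laurentHom ⟨f, mem_MerInf_of_isExp H⟩).unique (Nat.pos_of_ne_zero (NeZero.ne h)) H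

theorem exists_isExp_of_mem {h : ℕ} [NeZero h] {f : ℍ → ℂ} (hf : f ∈ MerInf h) :
    ∃ s : LaurentSeries ℂ, IsExp h f s :=
  ⟨_, isExp_laurentHom ⟨f, hf⟩⟩

theorem MerLevel_qParam_pow (h k : ℕ) (hk : k ≠ 0) (z : ℂ) :
    Function.Periodic.qParam (h : ℝ) z = Function.Periodic.qParam ((h * k : ℕ) : ℝ) z ^ k := by
  have hk' : (k : ℂ) ≠ 0 := by exact_mod_cast hk
  rw [Function.Periodic.qParam, Function.Periodic.qParam, ← Complex.exp_nat_mul]
  congr 1
  push_cast
  by_cases hh : (h : ℂ) = 0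
  · simp [hh]
  · field_simp

/-- raising the level. -/
theorem mem_MerInf_of_dvd {h h' : ℕ} [NeZero h'] (hd : h ∣ h') {f : ℍ → ℂ} (hf : f ∈ MerInf h) :
    f ∈ MerInf h' := by
  obtain ⟨k, rfl⟩ := hd
  have hk : k ≠ 0 := fun h0 => NeZero.ne (h * k) (by rw [h0, mul_zero])
  obtain ⟨h1, h2, m, hm⟩ := S24.mem_MerInf.mp hf
  refine S24.mem_MerInf.mpr ⟨h1, ?_, k * m, ?_⟩
  · have := h2.nat_mul k
    have e : (((h * k : ℕ) : ℝ) : ℂ) = (k : ℂ) * ((h : ℝ) : ℂ) := by
      push_cast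
      ring
    rw [e]
    exact this
  · have e : (fun τ : ℍ => f τ * Function.Periodic.qParam ((h * k : ℕ) : ℝ) τ ^ (k * m)) =
        fun τ : ℍ => f τ * Function.Periodic.qParam (h : ℝ) τ ^ m := by
      funext τ
      rw [MerLevel_qParam_pow h k hk, pow_mul]
    rw [e]
    exact hm

/-- lowering the level: only the periodicity has to be checked. -/
theorem mem_MerInf_of_periodic {h h' : ℕ} [NeZero h] [NeZero h'] (hd : h ∣ h') {f : ℍ → ℂ}
    (hf : f ∈ MerInf h') (hper : ∀ τ : ℍ, f ((h : ℝ) +ᵥ τ) = f τ) : f ∈ MerInf h := by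
  obtain ⟨k, rfl⟩ := hd
  have hk : k ≠ 0 := fun h0 => NeZero.ne (h * k) (by rw [h0, mul_zero])
  obtain ⟨h1, -, m, hm⟩ := S24.mem_MerInf.mp hf
  refine S24.mem_MerInf.mpr ⟨h1, ?_, m, ?_⟩
  · refine S24.Hol_periodic_of_forall h fun τ τ' hτ => ?_
    have : τ' = (h : ℝ) +ᵥ τ := by
      apply UpperHalfPlane.ext
      rw [hτ, UpperHalfPlane.coe_vadd]
      ring
    rw [this, hper]
  · have e : (fun τ : ℍ => f τ * Function.Periodic.qParam (h : ℝ) τ ^ m) =
        fun τ : ℍ => f τ * Function.Periodic.qParam ((h * k : ℕ) : ℝ) τ ^ (k * m) := by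
      funext τ
      rw [MerLevel_qParam_pow h k hk, pow_mul]
    rw [e]
    exact S24.Hol_bdd_of_le (Nat.le_mul_of_pos_left m (Nat.pos_of_ne_zero hk)) hm

/-- an expansion in `t = q^{1/ℓ}` which is a series in `t^ℓ` is an expansion in `q`. -/
theorem isExp_one_of_qExpand {ℓ : ℕ} [NeZero ℓ] {f : ℍ → ℂ} {w : LaurentSeries ℂ}
    (H : IsExp ℓ f (qExpand ℂ ℓ w)) : IsExp 1 f w := by
  intro τ
  have hℓ : (ℓ : ℤ) ≠ 0 := by exact_mod_cast NeZero.ne ℓ
  have hinj : Function.Injective (fun k : ℤ => (ℓ : ℤ) * k) := fun a b hab =>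
    mul_left_cancel₀ hℓ hab
  have h1 := H τ
  rw [← hinj.hasSum_iff] at h1
  · have e : ((fun k : ℤ => (qExpand ℂ ℓ w).coeff k * tParam ℓ τ ^ k) ∘
        fun k : ℤ => (ℓ : ℤ) * k) = fun k : ℤ => w.coeff k * tParam 1 τ ^ k := by
      funext k
      simp only [Function.comp_apply, qExpand_coeff_mul]
      congr 1
      have h2 : tParam 1 τ = tParam ℓ τ ^ ℓ := by
        have := MerLevel_qParam_pow 1 ℓ (NeZero.ne ℓ) (τ : ℂ)
        rw [one_mul] at this
        exact this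
      rw [h2, zpow_mul, zpow_natCast]
    rw [e] at h1
    exact h1
  · intro k hk
    have hd : ¬ (ℓ : ℤ) ∣ k := fun ⟨c, hc⟩ => hk ⟨c, hc.symm⟩
    rw [qExpand_coeff_of_not_dvd ℓ _ hd, zero_mul]

end Fermat.Agent.GR.B
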