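import Fermat.Agent.GR.B.MerLevel
import Fermat.Agent.GR.C.Basic
import Fermat.Agent.S21.Injective

/-!
# GR-B, Kummer side, file K8: complex conjugation, `χ_{c u} = - χ_u ∘ (γ ↦ J γ J)`
-/

set_option autoImplicit false

open UpperHalfPlane ModularCurve ModularCurve.Period Matrix.SpecialLinearGroup CongruenceSubgroup
open scoped MatrixGroups Manifold ComplexConjugate

namespace Fermat.Agent.GR.B

open Fermat.Agent.S24 Fermat.Agent.S28 Fermat.Agent.GR.A Fermat.Agent.S21

variable {N : ℕ}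

theorem mdiff_tilde {f : ℍ → ℂ} (hf : MDiff f) : MDiff (tilde f) :=
  mdiff_of_hasDerivAt (hasDerivAt_tilde (B := f) (b := fun τ => deriv (f ∘ ofComplex) τ)
    (fun τ => (mdifferentiableAt_iff.mp (hf τ)).hasDerivAt))

private theorem CharConj_tParam_refl (h : ℕ) (τ : ℍ) :
    conj (tParam h (refl τ)) = tParam h τ := by
  unfold tParam Function.Periodic.qParam
  rw [← Complex.exp_conj]
  congr 1
  simp only [coe_refl, map_div₀, map_mul, map_neg, Complex.conj_I, Complex.conj_ofReal,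
    Complex.conj_conj, map_ofNat]
  ring

theorem isExp_tilde {h : ℕ} {f : ℍ → ℂ} {s : LaurentSeries ℂ} (H : IsExp h f s) :
    IsExp h (tilde f) (coeffMap (starRingEnd ℂ) s) := by
  intro τ
  have h1 := Complex.hasSum_conj'.2 (H (refl τ))
  have h2 : (fun k : ℤ => conj (s.coeff k * tParam h (refl τ) ^ k)) =
      fun k : ℤ => (coeffMap (starRingEnd ℂ) s).coeff k * tParam h τ ^ k := by
    funext k
    rw [map_mul, map_zpow₀, CharConj_tParam_refl, coeffMap_coeff]
  rw [h2] at h1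
  exact h1

theorem mem_MerInf_tilde {h : ℕ} [NeZero h] {f : ℍ → ℂ} (hf : f ∈ MerInf h) :
    tilde f ∈ MerInf h := by
  obtain ⟨s, hs⟩ := exists_isExp_of_mem hf
  exact mem_MerInf_of_isExp (isExp_tilde hs)

private theorem CharConj_tilde_smul (f : ℍ → ℂ) (γ : SL(2, ℤ)) (τ : ℍ) :
    tilde f (γ • τ) = tilde (fun z => f (jConjSL γ • z)) τ := by
  simp only [tilde, jConjSL_smul_refl]

theorem isModFun_tilde [NeZero N] {f : ℍ → ℂ} (hf : IsModFun N f) : IsModFun N (tilde f) := by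
  refine ⟨mdiff_tilde hf.1, ?_, ?_⟩
  · intro γ hγ τ
    rw [CharConj_tilde_smul]
    simp only [tilde]
    rw [hf.2.1 _ (jConjSL_mem_Gamma0 hγ)]
  · intro γ
    have : (fun τ : ℍ => tilde f (γ • τ)) = tilde (fun z => f (jConjSL γ • z)) :=
      funext fun τ => CharConj_tilde_smul f γ τ
    rw [this]
    exact mem_MerInf_tilde (hf.2.2 (jConjSL γ))

theorem hasRoot_tilde [NeZero N] {n : ℕ} [NeZero n] {c w : ℍ → ℂ}
    {φ : Additive (Gamma0 N) →+ ZMod n} (h : HasRoot N n c w φ) :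
    HasRoot N n (tilde c) (tilde w) (-(charInvolution N ℤ (ZMod n) φ)) := by
  refine ⟨isModFun_tilde h.modFun, ?_, mdiff_tilde h.mdiff, ?_, ?_⟩
  · obtain ⟨τ, hτ⟩ := h.ne_zero
    refine ⟨refl τ, ?_⟩
    simp only [tilde, refl_refl]
    exact (map_ne_zero _).2 hτ
  · intro τ
    simp only [tilde]
    rw [← map_pow, h.pow_eq]
  · intro γ τ
    rw [CharConj_tilde_smul]
    simp only [tilde]
    have h1 := h.char (jConjGamma0 N γ) (refl τ)
    rw [jConjGamma0_coe] at h1
    rw [h1, map_mul, AddMonoidHom.neg_apply, AddChar.map_neg_eq_conj, charInvolution_apply]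
    rfl

/-- (A8). -/
theorem hasChar_conj [NeZero N] {n : ℕ} [NeZero n] {u : LaurentSeries ℂ}
    {φ : Additive (Gamma0 N) →+ ZMod n} (h : HasChar N n u φ) :
    HasChar N n (coeffMap (starRingEnd ℂ) u) (-(charInvolution N ℤ (ZMod n) φ)) := by
  obtain ⟨c, w, f, hr, he, hk⟩ := h
  exact ⟨tilde c, tilde w, coeffMap (starRingEnd ℂ) f, hasRoot_tilde hr, isExp_tilde he,
    GR.C.kummerEquiv_coeffMap hk _⟩

end Fermat.Agent.GR.B
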