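import Fermat.Agent.GR.B.Concrete

/-!
# GR-B, file 4 (task B-INVOL): Hecke operators commute with the involution `γ ↦ J γ J`,
`J = diag(1,-1)` (Prelude `charInvolution`).
-/

set_option autoImplicit false

open CongruenceSubgroup Matrix.SpecialLinearGroup UpperHalfPlane ModularCurve.Period
open scoped MatrixGroups
open P2MW.S_ModularForm_heckeT_slash_eq_self_of_mem_Gamma0.ModularForm.HeckeSlashInvariance

namespace Fermat.Agent.GR.B

variable {N : ℕ}

/-- Abstract criterion.  `e` is the permutation of the index set induced by conjugation with `J`,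
`τ i ∈ Γ₀(N)` the correction: `J (α i) J = τ i * α (e i)` (here `Jm = diag(1,-1) ∈ GL₂(ℝ)`). -/
theorem Reps.op_charInvolution_of (H : Reps N) (Jm : GL (Fin 2) ℝ)
    (hJ : ∀ g : SL(2, ℤ), Jm * mapGL ℝ g * Jm⁻¹ = mapGL ℝ (jConjSL g))
    (e : Equiv.Perm H.ι) (τ : H.ι → Gamma0 N)
    (hτ : ∀ i, Jm * H.α i * Jm⁻¹ = mapGL ℝ ((τ i : Gamma0 N) : SL(2, ℤ)) * H.α (e i))
    (he : ∀ (γ : Gamma0 N) (i : H.ι), e (H.perm (jConjGamma0 N γ) i) = H.perm γ (e i))
    (R : Type*) [Semiring R] (M : Type*) [AddCommGroup M] [Module R M]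
    (φ : Additive (Gamma0 N) →+ M) :
    H.op M (charInvolution N R M φ) = charInvolution N R M (H.op M φ) := by
  -- the key identity in `Γ₀(N)`
  have key : ∀ (γ : Gamma0 N) (i : H.ι),
      τ i * H.coc γ (e i) =
        jConjGamma0 N (H.coc (jConjGamma0 N γ) i) * τ (H.perm (jConjGamma0 N γ) i) := by
    intro γ i
    have h1 := H.rel (jConjGamma0 N γ) i
    have h2 := H.rel γ (e i)
    rw [← he γ i] at h2
    set i' := H.perm (jConjGamma0 N γ) i with hi'
    have h3 : Jm * (H.α i * mapGL ℝ ((jConjGamma0 N γ : Gamma0 N) : SL(2, ℤ))) * Jm⁻¹ =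
        (Jm * H.α i * Jm⁻¹) * (Jm * mapGL ℝ ((jConjGamma0 N γ : Gamma0 N) : SL(2, ℤ)) * Jm⁻¹) := by
      group
    have h4 : Jm * (mapGL ℝ ((H.coc (jConjGamma0 N γ) i : Gamma0 N) : SL(2, ℤ)) * H.α i') * Jm⁻¹ =
        (Jm * mapGL ℝ ((H.coc (jConjGamma0 N γ) i : Gamma0 N) : SL(2, ℤ)) * Jm⁻¹) *
          (Jm * H.α i' * Jm⁻¹) := by
      group
    rw [h1, h4, hJ, hJ, hτ, hτ, jConjGamma0_coe, jConjSL_jConjSL, mul_assoc, h2] at h3
    have h7 : mapGL ℝ (((τ i * H.coc γ (e i) : Gamma0 N)) : SL(2, ℤ)) =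
        mapGL ℝ (((jConjGamma0 N (H.coc (jConjGamma0 N γ) i) * τ i' : Gamma0 N)) : SL(2, ℤ)) := by
      apply mul_right_cancel (b := H.α (e i'))
      rw [Subgroup.coe_mul, Subgroup.coe_mul, map_mul, map_mul, jConjGamma0_coe, mul_assoc,
        mul_assoc]
      exact h3.symm
    exact Subtype.ext (mapGL_injective h7)
  refine AddMonoidHom.ext fun γ => ?_
  induction γ using Additive.rec with
  | ofMul γ =>
    rw [Reps.op_apply, charInvolution_apply, toMul_ofMul, Reps.op_apply]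
    simp only [charInvolution_apply, toMul_ofMul]
    have h5 : ∀ i, φ (Additive.ofMul (jConjGamma0 N (τ i))) +
        φ (Additive.ofMul (jConjGamma0 N (H.coc γ (e i)))) =
        φ (Additive.ofMul (H.coc (jConjGamma0 N γ) i)) +
          φ (Additive.ofMul (jConjGamma0 N (τ (H.perm (jConjGamma0 N γ) i)))) := by
      intro i
      rw [← map_add φ, ← map_add φ, ← ofMul_mul, ← ofMul_mul, ← map_mul, key γ i, map_mul,
        jConjGamma0_jConjGamma0]
    have h6 := Finset.sum_congr (rfl : (Finset.univ : Finset H.ι) = Finset.univ)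
      (fun i _ => h5 i)
    rw [Finset.sum_add_distrib, Finset.sum_add_distrib,
      Equiv.sum_comp (H.perm (jConjGamma0 N γ))
        (fun i => φ (Additive.ofMul (jConjGamma0 N (τ i)))),
      Equiv.sum_comp e (fun i => φ (Additive.ofMul (jConjGamma0 N (H.coc γ i)))), add_comm] at h6
    exact add_right_cancel h6

/-- `J = diag(1,-1)`. -/
noncomputable def Invol_Jm : GL (Fin 2) ℝ :=
  Matrix.GeneralLinearGroup.mkOfDetNeZero !![1, 0; 0, -1] (by simp)

theorem Invol_Jm_coe : ((Invol_Jm : GL (Fin 2) ℝ) : Matrix (Fin 2) (Fin 2) ℝ) = !![1, 0; 0, -1] :=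
  rfl

theorem Invol_Jm_inv : Invol_Jm⁻¹ = Invol_Jm := by
  rw [inv_eq_iff_mul_eq_one]
  apply Units.ext
  rw [Units.val_mul, Invol_Jm_coe]
  ext i j
  fin_cases i <;> fin_cases j <;> simp [Matrix.mul_apply, Fin.sum_univ_two]

theorem Invol_hJ (g : SL(2, ℤ)) : Invol_Jm * mapGL ℝ g * Invol_Jm⁻¹ = mapGL ℝ (jConjSL g) := by
  rw [Invol_Jm_inv]
  ext i j
  rw [Units.val_mul, Units.val_mul, Invol_Jm_coe, Matrix.mul_apply, Fin.sum_univ_two,
    Matrix.mul_apply, Matrix.mul_apply, Fin.sum_univ_two, Fin.sum_univ_two, mapGL_apply]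
  fin_cases i <;> fin_cases j <;> simp

/-- the translation `(1 t; 0 1)` as an element of `SL₂(ℤ)`. -/
def Invol_translSL (t : ℤ) : SL(2, ℤ) := ⟨!![1, t; 0, 1], by simp⟩

/-- the translation `(1 t; 0 1)` as an element of `Γ₀(N)`. -/
def Invol_transl (N : ℕ) (t : ℤ) : Gamma0 N :=
  ⟨Invol_translSL t, by rw [Gamma0_mem]; simp [Invol_translSL]⟩

theorem Invol_heckeMatrix {p : ℕ} (hp : p ≠ 0) (a b : ℕ) (t : ℤ) (h : -(a : ℤ) = b + t * p) :
    Invol_Jm * ModularForm.heckeMatrix p a * Invol_Jm⁻¹ =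
      mapGL ℝ ((Invol_transl N t : Gamma0 N) : SL(2, ℤ)) * ModularForm.heckeMatrix p b := by
  rw [Invol_Jm_inv]
  have h' : -(a : ℝ) = b + t * p := by exact_mod_cast h
  ext i j
  rw [Units.val_mul, Units.val_mul, Units.val_mul, Invol_Jm_coe, ModularForm.val_heckeMatrix hp,
    ModularForm.val_heckeMatrix hp, Matrix.mul_apply, Fin.sum_univ_two,
    Matrix.mul_apply, Matrix.mul_apply, Fin.sum_univ_two, Fin.sum_univ_two, Matrix.mul_apply,
    Fin.sum_univ_two, mapGL_apply, mapGL_apply]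
  fin_cases i <;> fin_cases j <;> simp [Invol_transl, Invol_translSL, h']

theorem Invol_heckeDiagMatrix {p : ℕ} (hp : p ≠ 0) :
    Invol_Jm * ModularForm.heckeDiagMatrix p * Invol_Jm⁻¹ =
      mapGL ℝ (((1 : Gamma0 N) : Gamma0 N) : SL(2, ℤ)) * ModularForm.heckeDiagMatrix p := by
  rw [Invol_Jm_inv, OneMemClass.coe_one, map_one, one_mul]
  ext i j
  rw [Units.val_mul, Units.val_mul, Invol_Jm_coe, ModularForm.val_heckeDiagMatrix hp,
    Matrix.mul_apply, Fin.sum_univ_two,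
    Matrix.mul_apply, Matrix.mul_apply, Fin.sum_univ_two, Fin.sum_univ_two]
  fin_cases i <;> fin_cases j <;> simp

theorem Invol_exists_t (p : ℕ) [NeZero p] (x : ZMod p) :
    ∃ t : ℤ, -((x.val : ℕ) : ℤ) = ((-x).val : ℕ) + t * p := by
  have h : (p : ℤ) ∣ -((x.val : ℕ) : ℤ) - ((-x).val : ℕ) := by
    rw [← ZMod.intCast_zmod_eq_zero_iff_dvd]
    push_cast
    rw [ZMod.natCast_zmod_val, ZMod.natCast_zmod_val]
    ring
  obtain ⟨t, ht⟩ := h
  exact ⟨t, by linear_combination ht⟩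

theorem op_charInvolution_U (p : ℕ) [NeZero p] (hpN : p ∣ N)
    (R : Type*) [Semiring R] (M : Type*) [AddCommGroup M] [Module R M]
    (φ : Additive (Gamma0 N) →+ M) :
    (repsU p hpN).op M (charInvolution N R M φ) = charInvolution N R M ((repsU p hpN).op M φ) := by
  refine Reps.op_charInvolution_of (repsU p hpN) Invol_Jm Invol_hJ (Equiv.neg (ZMod p))
    (fun x : ZMod p => Invol_transl N (Invol_exists_t p x).choose) ?_ ?_ R M φ
  · intro x
    exact Invol_heckeMatrix (NeZero.ne p) _ _ _ (Invol_exists_t p x).choose_spec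
  · intro γ x
    change ZMod p at x
    show -(affinePerm ((jConjGamma0 N γ : Gamma0 N) : SL(2, ℤ))
      (cast_eq_zero_of_mem_Gamma0 hpN (jConjGamma0 N γ)) x : ZMod p) =
      affinePerm (γ : SL(2, ℤ)) (cast_eq_zero_of_mem_Gamma0 hpN γ) (-x : ZMod p)
    rw [affinePerm_apply, affinePerm_apply]
    simp
    ring

/-- `diag(-1,1)` mod `p`, acting on `ℙ¹(𝔽_p)` by `x ↦ -x`. -/
noncomputable def Invol_negGL (p : ℕ) [Fact p.Prime] : GL (Fin 2) (ZMod p) :=
  Matrix.GeneralLinearGroup.mkOfDetNeZero !![-1, 0; 0, 1] (by simp)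

theorem Invol_negGL_coe (p : ℕ) [Fact p.Prime] :
    ((Invol_negGL p : GL (Fin 2) (ZMod p)) : Matrix (Fin 2) (Fin 2) (ZMod p)) = !![-1, 0; 0, 1] :=
  rfl

theorem Invol_negGL_smul_infty (p : ℕ) [Fact p.Prime] :
    Invol_negGL p • (OnePoint.infty : OnePoint (ZMod p)) = OnePoint.infty := by
  rw [OnePoint.smul_infty_eq_ite, if_pos]
  simp [Invol_negGL_coe]

theorem Invol_negGL_smul_coe (p : ℕ) [Fact p.Prime] (j : ZMod p) :
    Invol_negGL p • (j : OnePoint (ZMod p)) = ((-j : ZMod p) : OnePoint (ZMod p)) := by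
  rw [OnePoint.smul_some_eq_ite, if_neg]
  · simp [Invol_negGL_coe]
  · simp [Invol_negGL_coe]

theorem Invol_negGL_mul (p : ℕ) [Fact p.Prime] (g : SL(2, ℤ)) :
    Invol_negGL p * redMatrix p (jConjSL g) = redMatrix p g * Invol_negGL p := by
  ext i j
  rw [Units.val_mul, Units.val_mul, Invol_negGL_coe, Matrix.mul_apply, Fin.sum_univ_two,
    Matrix.mul_apply, Fin.sum_univ_two]
  fin_cases i <;> fin_cases j <;> simp

theorem op_charInvolution_T (p : ℕ) [Fact p.Prime] (hpN : ¬ p ∣ N)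
    (R : Type*) [Semiring R] (M : Type*) [AddCommGroup M] [Module R M]
    (φ : Additive (Gamma0 N) →+ M) :
    (repsT p hpN).op M (charInvolution N R M φ) = charInvolution N R M ((repsT p hpN).op M φ) := by
  have hp : p ≠ 0 := (Fact.out : p.Prime).ne_zero
  refine Reps.op_charInvolution_of (repsT p hpN) Invol_Jm Invol_hJ
    (MulAction.toPerm (Invol_negGL p) : Equiv.Perm (OnePoint (ZMod p)))
    (fun x : OnePoint (ZMod p) =>
      x.elim 1 (fun j => Invol_transl N (Invol_exists_t p j).choose)) ?_ ?_ R M φ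
  · intro x
    change OnePoint (ZMod p) at x
    induction x using OnePoint.rec with
    | infty =>
      show Invol_Jm * heckeRep p OnePoint.infty * Invol_Jm⁻¹ =
        mapGL ℝ (((1 : Gamma0 N) : Gamma0 N) : SL(2, ℤ)) *
          heckeRep p (Invol_negGL p • (OnePoint.infty : OnePoint (ZMod p)))
      rw [Invol_negGL_smul_infty]
      exact Invol_heckeDiagMatrix hp
    | coe j =>
      show Invol_Jm * heckeRep p (j : OnePoint (ZMod p)) * Invol_Jm⁻¹ =
        mapGL ℝ ((Invol_transl N (Invol_exists_t p j).choose : Gamma0 N) : SL(2, ℤ)) *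
          heckeRep p (Invol_negGL p • (j : OnePoint (ZMod p)))
      rw [Invol_negGL_smul_coe]
      exact Invol_heckeMatrix hp _ _ _ (Invol_exists_t p j).choose_spec
  · intro γ x
    change OnePoint (ZMod p) at x
    show Invol_negGL p • (redMatrix p ((jConjGamma0 N γ : Gamma0 N) : SL(2, ℤ)) • x) =
      redMatrix p (γ : SL(2, ℤ)) • (Invol_negGL p • x)
    rw [← mul_smul, ← mul_smul, jConjGamma0_coe, Invol_negGL_mul]

end Fermat.Agent.GR.B
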