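import Fermat.Agent.GR.B.Concrete
import Fermat.Agent.S21.Primitive
import Fermat.Prelude.Def_CuspForm_HeckeAlgebra

/-!
# GR-B, file 5 (task B-PERIOD): the period map is Hecke equivariant
-/

set_option autoImplicit false

open CongruenceSubgroup Matrix.SpecialLinearGroup UpperHalfPlane ModularCurve ModularCurve.Period
open scoped MatrixGroups ModularForm
open P2MW.S_ModularForm_heckeT_slash_eq_self_of_mem_Gamma0.ModularForm.HeckeSlashInvariance

namespace Fermat.Agent.GR.B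

variable {N : ℕ} [NeZero N]

/-- chain rule for `GL₂(ℝ)⁺` (same proof as `S21.hasDerivAt_comp_smul`). -/
theorem hasDerivAt_comp_GL_smul {F φ : ℍ → ℂ}
    (hF : ∀ τ : ℍ, HasDerivAt (F ∘ ofComplex) (φ τ) ↑τ) (α : GL (Fin 2) ℝ)
    (hα : 0 < (α.det : ℝ)) (w : ℍ) :
    HasDerivAt ((fun w : ℍ => F (α • w)) ∘ ofComplex) ((φ ∣[(2 : ℤ)] α) w) ↑w := by
  have hdet : 0 < α.val.det := by
    rwa [← Matrix.GeneralLinearGroup.val_det_apply]
  have h_smul := (hasStrictDerivAt_smul hdet w).hasDerivAt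
  have h1 : HasDerivAt (F ∘ ofComplex) (φ (α • w)) ↑(α • ofComplex (w : ℂ)) := by
    rw [ofComplex_apply]; exact hF _
  have h2 := h1.comp (w : ℂ) h_smul
  have h3 : ((fun w : ℍ => F (α • w)) ∘ ofComplex) =
      ((F ∘ ofComplex) ∘ fun z : ℂ => (↑(α • ofComplex z) : ℂ)) := by
    funext z
    simp [Function.comp]
  have h4 : (φ ∣[(2 : ℤ)] α) w = (φ (α • w) * (↑α.val.det / denom α ↑w ^ 2)) := by
    rw [ModularForm.slash_apply]
    have hσ : σ α = .refl ℝ ℂ := by rw [σ, if_pos hα]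
    rw [hσ, Matrix.GeneralLinearGroup.val_det_apply, abs_of_pos hdet]
    simp
    ring
  rw [h3, h4]
  exact h2

/-- abstract version. -/
theorem periodMap_of_reps (H : Reps N) (f g : CuspForm (Gamma0 N) 2)
    (hg : ⇑g = ∑ i, ⇑f ∣[(2 : ℤ)] H.α i) :
    periodMap N g = H.op ℂ (periodMap N f) := by
  obtain ⟨F, hF⟩ := S21.exists_primitive N f
  obtain ⟨F', hF'⟩ := S21.exists_primitive N g
  -- `G z = ∑ i, F (α i z)` is another primitive of `g`
  have hz : ∀ τ : ℍ, HasDerivAt ((fun w : ℍ => F' w - ∑ i, F (H.α i • w)) ∘ ofComplex) 0 ↑τ := by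
    intro τ
    have h1 : HasDerivAt ((fun w : ℍ => ∑ i, F (H.α i • w)) ∘ ofComplex) (g τ) ↑τ := by
      have h2 := HasDerivAt.fun_sum (u := Finset.univ)
        (fun i _ => hasDerivAt_comp_GL_smul hF.1 (H.α i) (H.det_pos i) τ)
      have h3 : g τ = ∑ i, (⇑f ∣[(2 : ℤ)] H.α i) τ := by
        rw [hg, Finset.sum_apply]
      rw [h3]
      exact h2
    have h2 := (hF'.1 τ).sub h1
    rw [sub_self] at h2
    exact h2
  refine AddMonoidHom.ext fun γ => ?_
  induction γ using Additive.rec with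
  | ofMul γ =>
    have hc := S21.const_of_hasDerivAt_zero hz ((γ : SL(2, ℤ)) • I) I
    have hG : ∀ (γ : Gamma0 N) (z : ℍ),
        F ((γ : SL(2, ℤ)) • z) = F z + periodMap N f (Additive.ofMul γ) := by
      intro γ z
      rw [S21.periodMap_apply hF γ z]
      ring
    have hs := H.sum_comp_smul (periodMap N f) F hG γ I
    rw [S21.periodMap_apply hF' γ I]
    rw [hs] at hc
    linear_combination hc

theorem periodMap_heckeT (p : ℕ) [Fact p.Prime] (hp : p.Prime) (hpN : ¬ p ∣ N)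
    (f : CuspForm (Gamma0 N) 2) :
    periodMap N (CuspForm.heckeTLin 2 hp hpN f) = (repsT p hpN).op ℂ (periodMap N f) := by
  apply periodMap_of_reps
  rw [CuspForm.coe_heckeTLin_apply, heckeT_eq_sum_onePoint]
  rfl

theorem periodMap_heckeU (p : ℕ) [NeZero p] (hpN : p ∣ N) (f : CuspForm (Gamma0 N) 2) :
    periodMap N (CuspForm.heckeULin 2 hpN f) = (repsU p hpN).op ℂ (periodMap N f) := by
  apply periodMap_of_reps
  rw [CuspForm.coe_heckeULin_apply, heckeU_eq_sum_zmod]
  rfl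

end Fermat.Agent.GR.B
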