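import Fermat.Agent.GR.B.ESDefs
import Fermat.Agent.GR.B.Period
import Fermat.Agent.GR.B.Invol
import Fermat.Agent.GR.B.Kills
import Fermat.Agent.S21

/-!
# GR-B, file 6b (task B-ES1): Hecke-equivariant Eichler-Shimura, eigenspaces over `ℂ`
-/

set_option autoImplicit false

open CongruenceSubgroup Matrix.SpecialLinearGroup UpperHalfPlane ModularCurve ModularCurve.Period
open scoped MatrixGroups ModularForm

namespace Fermat.Agent.GR.B

variable (N : ℕ) [NeZero N]

/-! ### B-ES1 : equivariance -/

theorem periodMap_heckeP (p : ℕ) (hp : p.Prime) (f : CuspForm (Gamma0 N) 2) :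
    periodMap N (heckeP N p hp f) = (repsP N p hp).op ℂ (periodMap N f) := by
  by_cases h : p ∣ N
  · have : NeZero p := ⟨hp.ne_zero⟩
    have h1 : repsP N p hp = repsU p h := dif_pos h
    rw [heckeP_of_dvd N hp h, h1]
    exact periodMap_heckeU p h f
  · have : Fact p.Prime := ⟨hp⟩
    have h1 : repsP N p hp = repsT p h := dif_neg h
    rw [heckeP_of_not_dvd N hp h, h1]
    exact periodMap_heckeT p hp h f

theorem op_charInvolution_P (p : ℕ) (hp : p.Prime)
    (R : Type*) [Semiring R] (M : Type*) [AddCommGroup M] [Module R M]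
    (φ : Additive (Gamma0 N) →+ M) :
    (repsP N p hp).op M (charInvolution N R M φ) =
      charInvolution N R M ((repsP N p hp).op M φ) := by
  by_cases h : p ∣ N
  · have : NeZero p := ⟨hp.ne_zero⟩
    have h1 : repsP N p hp = repsU p h := dif_pos h
    rw [h1]
    exact op_charInvolution_U p h R M φ
  · have : Fact p.Prime := ⟨hp⟩
    have h1 : repsP N p hp = repsT p h := dif_neg h
    rw [h1]
    exact op_charInvolution_T p h R M φ

theorem periodHomPair_apply (f g : CuspForm (Gamma0 N) 2) :
    periodHomPair N (f, g) =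
      (periodMap N f + charInvolution N ℂ ℂ (periodMap N f)) +
        (periodMap N g - charInvolution N ℂ ℂ (periodMap N g)) := by
  obtain ⟨pml, hpml, hdef⟩ := periodHomPair_def N (Fermat.Agent.S21.existsPeriodMapLinear N)
  rw [hdef]
  simp only [LinearMap.coprod_apply, LinearMap.comp_apply, LinearMap.add_apply,
    LinearMap.sub_apply, LinearMap.id_apply, hpml]

theorem periodHomPair_heckeP (p : ℕ) (hp : p.Prime) (f g : CuspForm (Gamma0 N) 2) :
    periodHomPair N (heckeP N p hp f, heckeP N p hp g) =
      (repsP N p hp).op ℂ (periodHomPair N (f, g)) := by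
  rw [periodHomPair_apply, periodHomPair_apply, map_add, map_add, map_sub,
    op_charInvolution_P, op_charInvolution_P, periodMap_heckeP, periodMap_heckeP]

theorem charInvolution_periodHomPair (f g : CuspForm (Gamma0 N) 2) :
    charInvolution N ℂ ℂ (periodHomPair N (f, g)) = periodHomPair N (f, -g) := by
  have h1 : periodHomPair N (f, -g) = periodHomPair N (f, 0) - periodHomPair N (0, g) := by
    rw [← map_sub]
    congr 1
    simp
  have h2 : periodHomPair N (f, g) = periodHomPair N (f, 0) + periodHomPair N (0, g) := by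
    rw [← map_add]
    congr 1
    simp
  have h0 : periodMap N (0 : CuspForm (Gamma0 N) 2) = 0 :=
    (Fermat.Agent.S21.periodMapLinear N).map_zero
  rw [h1, h2, periodHomPair_apply, periodHomPair_apply, h0]
  simp only [map_add, map_sub, map_zero, charInvolution_charInvolution]
  abel

theorem ES_periodHomPair_mem (x : CuspForm (Gamma0 N) 2 × CuspForm (Gamma0 N) 2) :
    periodHomPair N x ∈ parabolicHoms ℂ (Gamma0 N) ℂ := by
  rw [← (Fermat.Agent.S21.result N).2]
  exact ⟨x, rfl⟩

theorem ES_eq_zero_of_eq_neg {g : CuspForm (Gamma0 N) 2} (h : g = -g) : g = 0 := by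
  have h2 : (2 : ℂ) • g = 0 := by
    rw [two_smul]
    nth_rewrite 2 [h]
    exact add_neg_cancel g
  exact (smul_eq_zero.mp h2).resolve_left two_ne_zero

/-- The map `f ↦ (1 + ι) P_f` on eigenspaces. -/
noncomputable def ES_mapOne (lam : ℕ → ℂ) : cuspEigen N lam →ₗ[ℂ] homEigen N lam 1 where
  toFun f := ⟨periodHomPair N ((f : CuspForm (Gamma0 N) 2), 0), by
    refine ⟨ES_periodHomPair_mem N _, ?_, ?_⟩
    · intro p hp
      rw [← periodHomPair_heckeP, f.2 p hp, map_zero, ← map_smul]
      congr 1
      simp
    · rw [charInvolution_periodHomPair, neg_zero, one_smul]⟩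
  map_add' f g := by
    apply Subtype.ext
    show periodHomPair N (((f + g : cuspEigen N lam) : CuspForm (Gamma0 N) 2), 0) =
      periodHomPair N ((f : CuspForm (Gamma0 N) 2), 0) +
        periodHomPair N ((g : CuspForm (Gamma0 N) 2), 0)
    rw [← map_add]
    congr 1
    simp
  map_smul' c f := by
    apply Subtype.ext
    show periodHomPair N (((c • f : cuspEigen N lam) : CuspForm (Gamma0 N) 2), 0) =
      c • periodHomPair N ((f : CuspForm (Gamma0 N) 2), 0)
    rw [← map_smul]
    congr 1
    simp

/-- The map `g ↦ (1 - ι) P_g` on eigenspaces. -/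
noncomputable def ES_mapNegOne (lam : ℕ → ℂ) : cuspEigen N lam →ₗ[ℂ] homEigen N lam (-1) where
  toFun f := ⟨periodHomPair N (0, (f : CuspForm (Gamma0 N) 2)), by
    refine ⟨ES_periodHomPair_mem N _, ?_, ?_⟩
    · intro p hp
      rw [← periodHomPair_heckeP, f.2 p hp, map_zero, ← map_smul]
      congr 1
      simp
    · rw [charInvolution_periodHomPair, ← map_smul]
      congr 1
      simp⟩
  map_add' f g := by
    apply Subtype.ext
    show periodHomPair N (0, ((f + g : cuspEigen N lam) : CuspForm (Gamma0 N) 2)) =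
      periodHomPair N (0, (f : CuspForm (Gamma0 N) 2)) +
        periodHomPair N (0, (g : CuspForm (Gamma0 N) 2))
    rw [← map_add]
    congr 1
    simp
  map_smul' c f := by
    apply Subtype.ext
    show periodHomPair N (0, ((c • f : cuspEigen N lam) : CuspForm (Gamma0 N) 2)) =
      c • periodHomPair N (0, (f : CuspForm (Gamma0 N) 2))
    rw [← map_smul]
    congr 1
    simp

theorem ES_mapOne_bijective (lam : ℕ → ℂ) : Function.Bijective (ES_mapOne N lam) := by
  have hinj := (Fermat.Agent.S21.result N).1
  constructor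
  · intro f g h
    have h1 : periodHomPair N ((f : CuspForm (Gamma0 N) 2), 0) =
        periodHomPair N ((g : CuspForm (Gamma0 N) 2), 0) := congrArg Subtype.val h
    exact Subtype.ext (congrArg Prod.fst (hinj h1))
  · rintro ⟨φ, hpar, hop, hι⟩
    rw [← (Fermat.Agent.S21.result N).2] at hpar
    obtain ⟨⟨f, g⟩, rfl⟩ := hpar
    rw [charInvolution_periodHomPair, one_smul] at hι
    have hg : g = 0 := ES_eq_zero_of_eq_neg N (congrArg Prod.snd (hinj hι)).symm
    subst hg
    refine ⟨⟨f, ?_⟩, Subtype.ext rfl⟩
    intro p hp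
    have h2 := hop p hp
    rw [← periodHomPair_heckeP, ← map_smul] at h2
    exact congrArg Prod.fst (hinj h2)

theorem ES_mapNegOne_bijective (lam : ℕ → ℂ) : Function.Bijective (ES_mapNegOne N lam) := by
  have hinj := (Fermat.Agent.S21.result N).1
  constructor
  · intro f g h
    have h1 : periodHomPair N (0, (f : CuspForm (Gamma0 N) 2)) =
        periodHomPair N (0, (g : CuspForm (Gamma0 N) 2)) := congrArg Subtype.val h
    exact Subtype.ext (congrArg Prod.snd (hinj h1))
  · rintro ⟨φ, hpar, hop, hι⟩
    rw [← (Fermat.Agent.S21.result N).2] at hpar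
    obtain ⟨⟨f, g⟩, rfl⟩ := hpar
    rw [charInvolution_periodHomPair, ← map_smul] at hι
    have hf : f = 0 := by
      apply ES_eq_zero_of_eq_neg N
      have := congrArg Prod.fst (hinj hι)
      simpa using this
    subst hf
    refine ⟨⟨g, ?_⟩, Subtype.ext rfl⟩
    intro p hp
    have h2 := hop p hp
    rw [← periodHomPair_heckeP, ← map_smul] at h2
    exact congrArg Prod.snd (hinj h2)

/-- B-ES1, final statement: `f ↦ (1 + ι) P_f` is an isomorphism `S₂[λ] ≃ Hom_par[λ, +1]`. -/
theorem finrank_homEigen_one (lam : ℕ → ℂ) :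
    Module.finrank ℂ (homEigen N lam 1) = Module.finrank ℂ (cuspEigen N lam) := by
  exact (LinearEquiv.ofBijective (ES_mapOne N lam) (ES_mapOne_bijective N lam)).finrank_eq.symm

/-- `g ↦ (1 - ι) P_g` is an isomorphism `S₂[λ] ≃ Hom_par[λ, -1]`. -/
theorem finrank_homEigen_neg_one (lam : ℕ → ℂ) :
    Module.finrank ℂ (homEigen N lam (-1)) = Module.finrank ℂ (cuspEigen N lam) := by
  exact (LinearEquiv.ofBijective (ES_mapNegOne N lam)
    (ES_mapNegOne_bijective N lam)).finrank_eq.symm

end Fermat.Agent.GR.B
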