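import Fermat.Agent.GR.B.LatEigen
import Fermat.Agent.Lib.EllPar

/-!
# GR-B, file 7e: the lattice package (everything `TateData` needs from the Hecke side)

`Λ = Lam N = Hom_par(Γ₀(N), ℤ)`, `heckeLam N`, `conjLam N`.
-/

set_option autoImplicit false

open CongruenceSubgroup Matrix.SpecialLinearGroup UpperHalfPlane ModularCurve ModularCurve.Period
open scoped MatrixGroups TensorProduct

namespace Fermat.Agent.GR.B

variable (N : ℕ) [NeZero N]

/-- the universal basis delivered by `Lib/EllPar`. -/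
noncomputable def univBasis : UnivBasis N where
  r := Lib.EllPar.rk N
  Φ := Lib.EllPar.basisHom N
  kills i := Lib.EllPar.killsEllPar_basisHom N i
  univ _ _ ψ hψ := Lib.EllPar.existsUnique_coeff N ψ hψ

instance instFreeLam : Module.Free ℤ (Lam N) := (univBasis N).free

instance instFiniteLam : Module.Finite ℤ (Lam N) := (univBasis N).finite

theorem eigen_dim_lam (μ : H.HeckeFull N →+* ℂ) (s : ℤˣ) :
    Module.finrank ℂ (H.eigenSubSign (heckeLam N) (conjLam N) ℂ μ s) = 1 :=
  eigen_dim N (univBasis N) μ s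

/-- the Hecke algebra acts faithfully on `Λ`. -/
theorem heckeLam_injective : Function.Injective (heckeLam N) := by
  rw [injective_iff_map_eq_zero]
  intro t ht
  obtain ⟨Ψ, hT, -⟩ := exists_esEquiv N (univBasis N)
  apply Subtype.ext
  ext1 f
  have h := hT t f 0
  rw [ht, LinearMap.baseChange_zero, LinearMap.zero_apply] at h
  have h2 := (LinearEquiv.map_eq_zero_iff Ψ).mp h
  exact congrArg Prod.fst h2

theorem repsP_of_not_dvd {p : ℕ} [Fact p.Prime] (h : ¬ p ∣ N) :
    repsP N p Fact.out = repsT p h := dif_neg h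

theorem repsP_of_dvd {p : ℕ} (hp : p.Prime) (h : p ∣ N) :
    repsP N p hp = (haveI : NeZero p := ⟨hp.ne_zero⟩; repsU p h) := dif_pos h

/-- reduction mod `n` : `Λ → Hom(Γ₀(N), ℤ/n)`; kernel `nΛ`, image = the homs killing elliptic and
parabolic elements. -/
theorem castHom_zmod_eq_zero_iff (n : ℕ) (x : Lam N) :
    castHom N (ZMod n) x = 0 ↔ ∃ y : Lam N, x = (n : ℤ) • y :=
  (univBasis N).castHom_zmod_eq_zero_iff n x

theorem exists_castHom_zmod_eq (n : ℕ) (ψ : Additive (Gamma0 N) →+ ZMod n) (hψ : Kills ψ) :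
    ∃ x : Lam N, castHom N (ZMod n) x = ψ :=
  (univBasis N).exists_castHom_zmod_eq n ψ hψ

theorem castHom_heckeLam_genP (n : ℕ) (p : ℕ) (hp : p.Prime) (x : Lam N) :
    castHom N (ZMod n) (heckeLam N (genP N p hp) x) =
      (repsP N p hp).op (ZMod n) (castHom N (ZMod n) x) := by
  rw [heckeLam_genP, castHom_opLam]

theorem castHom_heckeLam_T (n : ℕ) {ℓ : ℕ} [Fact ℓ.Prime] (hℓN : ¬ ℓ ∣ N) (x : Lam N) :
    castHom N (ZMod n) (heckeLam N (H.HeckeFull.T Fact.out hℓN) x) =
      (repsT ℓ hℓN).op (ZMod n) (castHom N (ZMod n) x) := by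
  rw [heckeLam_T, castHom_opLam, repsP_of_not_dvd]

end Fermat.Agent.GR.B
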