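import Fermat.Agent.GR.B.KummerMain
import Fermat.Agent.GR.B.CharConj
import Fermat.Agent.GR.B.LatMain
import Fermat.Agent.GR.C.MainQbar
import Fermat.Agent.GR.C.Conj
import Fermat.Agent.GR.F.Main

/-!
# GR-B: exports over `ℚ̄`, in the shape of the fields of `GR.I.KummerData`

`ι : ℚ̄ →+* ℂ` is any embedding.  The only input from GR-A is the dictionary
`IsKummer n u ↔ ∃ φ, Kills φ ∧ HasChar N n u φ` over `ℂ` (hypothesis `Dict`).
-/

set_option autoImplicit false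

open UpperHalfPlane ModularCurve ModularCurve.Period Matrix.SpecialLinearGroup CongruenceSubgroup
open scoped MatrixGroups Manifold

namespace Fermat.Agent.GR.B

open Fermat.Agent.GR.A

variable {N : ℕ} [NeZero N] (ι : Qbar →+* ℂ)

/-- the dictionary of GR-A (A1 + A2). -/
def Dict (N : ℕ) : Prop :=
  ∀ (n : ℕ) [NeZero n] (u : LaurentSeries ℂ),
    IsKummer (N := N) n u ↔ ∃ φ : Additive (Gamma0 N) →+ ZMod n, Kills φ ∧ HasChar N n u φ

theorem isPrimitiveRoot_unitsMap {ℓ : ℕ} {ζ : Qbarˣ} (hζ : IsPrimitiveRoot ζ ℓ) :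
    IsPrimitiveRoot (Units.map (ι : Qbar →* ℂ) ζ) ℓ :=
  hζ.map_of_injective (Units.map_injective (f := (ι : Qbar →* ℂ)) ι.injective)

/-! ### (B1) over `ℚ̄` -/

theorem heckeMulT_mem_FF_Qbar (ℓ : ℕ) [Fact ℓ.Prime] (hℓN : ¬ ℓ ∣ N) (ζ : Qbarˣ)
    (hζ : IsPrimitiveRoot ζ ℓ) {u : LaurentSeries Qbar} (hu : u ∈ FF Qbar N) :
    heckeMulT ℓ ζ u ∈ FF Qbar N := by
  obtain ⟨ι⟩ : Nonempty (Qbar →+* ℂ) := S24.nonempty_iotaC
  apply C.mem_FF_of_coeffMap_hom ι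
  rw [coeffMap_heckeMulT]
  exact heckeMulT_mem_FF ℓ hℓN _ (isPrimitiveRoot_unitsMap ι hζ) (C.coeffMap_mem_FF N ι hu)

theorem normT_mem_FF_Qbar (q : ℕ) [NeZero q] (hqN : q ∣ N) (ζ : Qbarˣ)
    (hζ : IsPrimitiveRoot ζ q) {u : LaurentSeries Qbar} (hu : u ∈ FF Qbar N) :
    normT q ζ u ∈ FF Qbar N := by
  obtain ⟨ι⟩ : Nonempty (Qbar →+* ℂ) := S24.nonempty_iotaC
  apply C.mem_FF_of_coeffMap_hom ι
  rw [coeffMap_normT]
  exact normT_mem_FF q hqN _ (isPrimitiveRoot_unitsMap ι hζ) (C.coeffMap_mem_FF N ι hu)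

/-! ### (B2) over `ℂ` and over `ℚ̄` -/

theorem isKummer_heckeMulT (hD : Dict N) (n : ℕ) [NeZero n] (ℓ : ℕ) [Fact ℓ.Prime]
    (hℓN : ¬ ℓ ∣ N) (ζ : ℂˣ) (hζ : IsPrimitiveRoot ζ ℓ) {u : LaurentSeries ℂ}
    (hu : IsKummer (N := N) n u) : IsKummer (N := N) n (heckeMulT ℓ ζ u) := by
  obtain ⟨φ, hφ, h⟩ := (hD n u).mp hu
  exact (hD n _).mpr ⟨_, (repsT ℓ hℓN).op_Kills hφ, hasChar_heckeMulT ℓ hℓN ζ hζ h⟩

theorem isKummer_normT (hD : Dict N) (n : ℕ) [NeZero n] (q : ℕ) [NeZero q]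
    (hqN : q ∣ N) (ζ : ℂˣ) (hζ : IsPrimitiveRoot ζ q) {u : LaurentSeries ℂ}
    (hu : IsKummer (N := N) n u) : IsKummer (N := N) n (normT q ζ u) := by
  obtain ⟨φ, hφ, h⟩ := (hD n u).mp hu
  exact (hD n _).mpr ⟨_, (repsU q hqN).op_Kills hφ, hasChar_normT q hqN ζ hζ h⟩

omit [NeZero N] in
/-- reduction of the case `n = 0` to the cases `n > 0`. -/
theorem isKummer_of_forall_pos {K : Type*} [Field K] {u v : LaurentSeries K}
    (h : ∀ m : ℕ, 0 < m → IsKummer (N := N) m u → IsKummer (N := N) m v) (n : ℕ)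
    (hu : IsKummer (N := N) n u) : IsKummer (N := N) n v := by
  rcases Nat.eq_zero_or_pos n with rfl | hn
  · have hu' : ∀ m : ℕ, IsKummer (N := N) m u := by
      intro m
      obtain ⟨h0, hmem, hord⟩ := hu
      refine ⟨h0, hmem, fun w => ?_⟩
      have := hord w
      rw [Nat.cast_zero, zero_dvd_iff] at this
      rw [this]
      exact dvd_zero _
    obtain ⟨h0, hmem, -⟩ := h 1 one_pos (hu' 1)
    refine ⟨h0, hmem, fun w => ?_⟩
    rw [Nat.cast_zero, zero_dvd_iff]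
    by_contra hne
    set a := w.ord (⟨v, hmem⟩ : FF K N) with ha
    obtain ⟨-, hmem', hord'⟩ := h (a.natAbs + 1) (Nat.succ_pos _) (hu' _)
    have h1 : ((a.natAbs + 1 : ℕ) : ℤ) ∣ a := hord' w
    have h2 := Int.natAbs_dvd_natAbs.mpr h1
    rw [Int.natAbs_natCast] at h2
    have h3 := Nat.le_of_dvd (Int.natAbs_pos.mpr hne) h2
    omega
  · exact h n hn hu

theorem isKummer_heckeMulT_Qbar (hD : Dict N) (n : ℕ) (ℓ : ℕ) [Fact ℓ.Prime]
    (hℓN : ¬ ℓ ∣ N) (ζ : Qbarˣ) (hζ : IsPrimitiveRoot ζ ℓ) {u : LaurentSeries Qbar}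
    (hu : IsKummer (N := N) n u) : IsKummer (N := N) n (heckeMulT ℓ ζ u) := by
  obtain ⟨ι⟩ : Nonempty (Qbar →+* ℂ) := S24.nonempty_iotaC
  refine isKummer_of_forall_pos (fun m hm hu => ?_) n hu
  haveI : NeZero m := ⟨hm.ne'⟩
  rw [← C.isKummer_iota_iff ι, coeffMap_heckeMulT]
  exact isKummer_heckeMulT hD m ℓ hℓN _ (isPrimitiveRoot_unitsMap ι hζ)
    ((C.isKummer_iota_iff ι).mpr hu)

theorem isKummer_normT_Qbar (hD : Dict N) (n : ℕ) (q : ℕ) [NeZero q]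
    (hqN : q ∣ N) (ζ : Qbarˣ) (hζ : IsPrimitiveRoot ζ q) {u : LaurentSeries Qbar}
    (hu : IsKummer (N := N) n u) : IsKummer (N := N) n (normT q ζ u) := by
  obtain ⟨ι⟩ : Nonempty (Qbar →+* ℂ) := S24.nonempty_iotaC
  refine isKummer_of_forall_pos (fun m hm hu => ?_) n hu
  haveI : NeZero m := ⟨hm.ne'⟩
  rw [← C.isKummer_iota_iff ι, coeffMap_normT]
  exact isKummer_normT hD m q hqN _ (isPrimitiveRoot_unitsMap ι hζ)
    ((C.isKummer_iota_iff ι).mpr hu)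

/-- field `heckeStable` of `KummerData`. -/
theorem heckeStable (hD : Dict N) (n ℓ : ℕ) [NeZero ℓ] (ζ : Qbarˣ) (hℓ : ℓ.Prime) (hℓN : ¬ ℓ ∣ N)
    (hζ : IsPrimitiveRoot ζ ℓ) : HeckeStable N n ℓ ζ := by
  haveI : Fact ℓ.Prime := ⟨hℓ⟩
  exact ⟨fun u hu => heckeMulT_mem_FF_Qbar ℓ hℓN ζ hζ hu,
    fun u hu => isKummer_heckeMulT_Qbar hD n ℓ hℓN ζ hζ hu⟩

/-! ### (B3) in terms of the lattice -/

theorem heckeLam_U {q : ℕ} (hq : q.Prime) (hqN : q ∣ N) :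
    heckeLam N (CuspForm.heckeAlgebra.U hq hqN (Set.notMem_empty q)) = opLam (repsP N q hq) := by
  have : CuspForm.heckeAlgebra.U hq hqN (Set.notMem_empty q) = genP N q hq :=
    Subtype.ext (heckeP_of_dvd N hq hqN).symm
  rw [this, heckeLam_genP]

/-- field `theta_heckeT` of `KummerData`. -/
theorem hasChar_heckeMulT_lam (n : ℕ) [NeZero n] (ℓ : ℕ) [NeZero ℓ] (hℓ : ℓ.Prime) (hℓN : ¬ ℓ ∣ N)
    (ζ : Qbarˣ) (hζ : IsPrimitiveRoot ζ ℓ) {u : LaurentSeries Qbar} {x : Lam N}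
    (h : HasChar N n (coeffMap ι u) (castHom N (ZMod n) x)) :
    HasChar N n (coeffMap ι (heckeMulT ℓ ζ u))
      (castHom N (ZMod n) (heckeLam N (H.HeckeFull.T hℓ hℓN) x)) := by
  haveI : Fact ℓ.Prime := ⟨hℓ⟩
  rw [coeffMap_heckeMulT, castHom_heckeLam_T N n hℓN x]
  exact hasChar_heckeMulT ℓ hℓN _ (isPrimitiveRoot_unitsMap ι hζ) h

/-- field `theta_heckeU` of `KummerData`. -/
theorem hasChar_normT_lam (n : ℕ) [NeZero n] (q : ℕ) [NeZero q] (hq : q.Prime) (hqN : q ∣ N)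
    (ζ : Qbarˣ) (hζ : IsPrimitiveRoot ζ q) {u : LaurentSeries Qbar} {x : Lam N}
    (h : HasChar N n (coeffMap ι u) (castHom N (ZMod n) x)) :
    HasChar N n (coeffMap ι (normT q ζ u))
      (castHom N (ZMod n)
        (heckeLam N (CuspForm.heckeAlgebra.U hq hqN (Set.notMem_empty q)) x)) := by
  rw [coeffMap_normT, heckeLam_U hq hqN, castHom_opLam, repsP_of_dvd N hq hqN]
  exact hasChar_normT q hqN _ (isPrimitiveRoot_unitsMap ι hζ) h

/-- field `theta_conj` of `KummerData`. -/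
theorem exists_hasChar_conj_lam :
    ∃ c : H.GQ, ∀ (n : ℕ) [NeZero n] (u : LaurentSeries Qbar) (x : Lam N),
      HasChar N n (coeffMap ι u) (castHom N (ZMod n) x) →
        HasChar N n (coeffMap ι (gal c u)) (castHom N (ZMod n) (conjLam N x)) := by
  obtain ⟨c, hc⟩ := C.exists_conj ι
  refine ⟨c, fun n _ u x h => ?_⟩
  have e : coeffMap ι (gal c u) = coeffMap (starRingEnd ℂ) (coeffMap ι u) := by
    ext k
    simp only [coeffMap_coeff, gal_coeff]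
    exact hc _
  rw [e, castHom_conjLam]
  exact hasChar_conj h

end Fermat.Agent.GR.B
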