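import Fermat.Agent.GR.B.MerAff
import Fermat.Agent.GR.B.Concrete

/-!
# GR-B, Kummer side, file K4: the multiplicative Hecke operator on functions on `ℍ`

`(H.mulFun f)(τ) = ∏ i, f (α i • τ)`.
-/

set_option autoImplicit false

open UpperHalfPlane ModularCurve Matrix.SpecialLinearGroup CongruenceSubgroup
open scoped MatrixGroups Manifold

namespace Fermat.Agent.GR.B

open Fermat.Agent.S24 Fermat.Agent.S28 Fermat.Agent.GR.A

variable {N : ℕ}

/-- the representatives are integral matrices. -/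
def Reps.IsInt (H : Reps N) : Prop :=
  ∀ i, ∃ A : Matrix (Fin 2) (Fin 2) ℤ,
    (H.α i : Matrix (Fin 2) (Fin 2) ℝ) = A.map (Int.cast : ℤ → ℝ)

open P2MW.S_ModularForm_heckeT_slash_eq_self_of_mem_Gamma0.ModularForm.HeckeSlashInvariance in
theorem repsT_isInt (p : ℕ) [Fact p.Prime] (hpN : ¬ p ∣ N) : (repsT p hpN).IsInt := by
  have hp : p ≠ 0 := (Fact.out : p.Prime).ne_zero
  intro x
  have key : ∀ y : OnePoint (ZMod p), ∃ A : Matrix (Fin 2) (Fin 2) ℤ,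
      (heckeRep p y : Matrix (Fin 2) (Fin 2) ℝ) = A.map (Int.cast : ℤ → ℝ) := by
    intro y
    induction y using OnePoint.rec with
    | infty =>
      refine ⟨!![(p : ℤ), 0; 0, 1], ?_⟩
      rw [heckeRep_infty, ModularForm.val_heckeDiagMatrix hp]
      ext i j
      fin_cases i <;> fin_cases j <;> simp
    | coe j =>
      refine ⟨!![1, (j.val : ℤ); 0, (p : ℤ)], ?_⟩
      rw [heckeRep_coe, ModularForm.val_heckeMatrix hp]
      ext i j
      fin_cases i <;> fin_cases j <;> simp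
  exact key x

theorem repsU_isInt (p : ℕ) [NeZero p] (hpN : p ∣ N) : (repsU p hpN).IsInt := by
  have key : ∀ y : ZMod p, ∃ A : Matrix (Fin 2) (Fin 2) ℤ,
      (ModularForm.heckeMatrix p y.val : Matrix (Fin 2) (Fin 2) ℝ) =
        A.map (Int.cast : ℤ → ℝ) := by
    intro y
    refine ⟨!![1, (y.val : ℤ); 0, (p : ℤ)], ?_⟩
    rw [ModularForm.val_heckeMatrix (NeZero.ne p)]
    ext i j
    fin_cases i <;> fin_cases j <;> simp
  intro x
  exact key x

/-- The multiplicative Hecke operator on functions. -/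
noncomputable def Reps.mulFun (H : Reps N) (f : ℍ → ℂ) : ℍ → ℂ := fun τ => ∏ i, f (H.α i • τ)

theorem Reps.mulFun_apply (H : Reps N) (f : ℍ → ℂ) (τ : ℍ) :
    H.mulFun f τ = ∏ i, f (H.α i • τ) := rfl

theorem Reps.mulFun_mul (H : Reps N) (f g : ℍ → ℂ) :
    H.mulFun (f * g) = H.mulFun f * H.mulFun g := by
  funext τ
  simp [Reps.mulFun, Finset.prod_mul_distrib]

theorem Reps.mulFun_pow (H : Reps N) (f : ℍ → ℂ) (n : ℕ) :
    H.mulFun (f ^ n) = H.mulFun f ^ n := by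
  funext τ
  simp [Reps.mulFun, Finset.prod_pow]

theorem HeckeFun_mdiff_comp (H : Reps N) {f : ℍ → ℂ} (hf : MDiff f) (i : H.ι) :
    MDiff (fun τ : ℍ => f (H.α i • τ)) :=
  hf.comp (UpperHalfPlane.mdifferentiable_smul (H.det_pos i))

theorem HeckeFun_mulFun_eq_prod (H : Reps N) (f : ℍ → ℂ) :
    H.mulFun f = ∏ i, (fun τ : ℍ => f (H.α i • τ)) := by
  funext τ
  rw [Finset.prod_apply]
  rfl

theorem Reps.mdiff_mulFun (H : Reps N) {f : ℍ → ℂ} (hf : MDiff f) : MDiff (H.mulFun f) := by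
  rw [HeckeFun_mulFun_eq_prod]
  exact Subring.prod_mem Hol (fun i _ => HeckeFun_mdiff_comp H hf i)

/-- `∏ f ∘ α i ≠ 0` (identity theorem: the ring of holomorphic functions is a domain). -/
theorem Reps.mulFun_ne_zero (H : Reps N) {f : ℍ → ℂ} (hf : MDiff f) (h0 : ∃ τ, f τ ≠ 0) :
    ∃ τ, H.mulFun f τ ≠ 0 := by
  obtain ⟨τ0, hτ0⟩ := h0
  let F : H.ι → Hol := fun i => ⟨fun τ : ℍ => f (H.α i • τ), HeckeFun_mdiff_comp H hf i⟩
  have hF : ∀ i, F i ≠ 0 := by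
    intro i h
    have h1 := congrArg (fun g : Hol => (g : ℍ → ℂ) ((H.α i)⁻¹ • τ0)) h
    simp only [F, smul_inv_smul] at h1
    exact hτ0 h1
  have hprod : (∏ i, F i) ≠ 0 := by
    intro h
    have h1 := congrArg (taylorHom τ0) h
    rw [map_prod, map_zero, Finset.prod_eq_zero_iff] at h1
    obtain ⟨i, -, hi⟩ := h1
    exact hF i (taylorHom_injective τ0 (hi.trans (map_zero _).symm))
  by_contra hcon
  push Not at hcon
  apply hprod
  apply Subtype.ext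
  rw [← Subring.subtype_apply, map_prod]
  funext τ
  have := hcon τ
  rw [HeckeFun_mulFun_eq_prod] at this
  exact this

/-- transformation of `∏ w ∘ α i` when `w` has the character `φ`. -/
theorem Reps.mulFun_smul (H : Reps N) {n : ℕ} [NeZero n] {w : ℍ → ℂ}
    {φ : Additive (Gamma0 N) →+ ZMod n}
    (hw : ∀ (γ : Gamma0 N) (τ : ℍ),
      w ((γ : SL(2, ℤ)) • τ) = ZMod.stdAddChar (φ (Additive.ofMul γ)) * w τ)
    (γ : Gamma0 N) (τ : ℍ) :
    H.mulFun w ((γ : SL(2, ℤ)) • τ) =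
      ZMod.stdAddChar (H.op (ZMod n) φ (Additive.ofMul γ)) * H.mulFun w τ :=
  H.prod_comp_smul (ZMod.stdAddChar (N := n)).toMonoidHom φ w hw γ τ

theorem Reps.mulFun_invariant (H : Reps N) {f : ℍ → ℂ}
    (hf : ∀ γ ∈ Gamma0 N, ∀ τ : ℍ, f (γ • τ) = f τ) :
    ∀ γ ∈ Gamma0 N, ∀ τ : ℍ, H.mulFun f (γ • τ) = H.mulFun f τ := by
  intro γ hγ τ
  have := H.prod_comp_smul (1 : Multiplicative ℤ →* ℂ) (0 : Additive (Gamma0 N) →+ ℤ) f
    (fun γ z => by rw [MonoidHom.one_apply, one_mul]; exact hf γ γ.2 z) ⟨γ, hγ⟩ τ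
  rw [MonoidHom.one_apply, one_mul] at this
  exact this

/-- criterion: the level at the cusps does not matter. -/
theorem isModFun_of_exists_level [NeZero N] {F : ℍ → ℂ} (h1 : MDiff F)
    (h2 : ∀ γ ∈ Gamma0 N, ∀ τ : ℍ, F (γ • τ) = F τ)
    (h3 : ∀ γ : SL(2, ℤ), ∃ M : ℕ, 0 < M ∧ (fun τ : ℍ => F (γ • τ)) ∈ MerInf M) :
    IsModFun N F := by
  refine ⟨h1, h2, fun γ => ?_⟩
  obtain ⟨M, hM, hmem⟩ := h3 γ
  have : NeZero (N * M) := ⟨Nat.mul_ne_zero (NeZero.ne N) hM.ne'⟩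
  have h4 : (fun τ : ℍ => F (γ • τ)) ∈ MerInf (N * M) :=
    mem_MerInf_of_dvd (Dvd.intro_left N rfl) hmem
  refine mem_MerInf_of_periodic (Dvd.intro M rfl) h4 fun τ => ?_
  have h5 : γ * ModularGroup.T ^ (N : ℤ) * γ⁻¹ ∈ Gamma0 N := by
    rw [Gamma0_mem]
    have : (γ * ModularGroup.T ^ (N : ℤ) * γ⁻¹) 1 0 = -(N : ℤ) * (γ 1 0) ^ 2 := by
      rw [Matrix.SpecialLinearGroup.coe_mul, Matrix.SpecialLinearGroup.coe_mul,
        ModularGroup.coe_T_zpow, Matrix.SpecialLinearGroup.coe_inv, Matrix.adjugate_fin_two]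
      simp [Matrix.mul_apply, Fin.sum_univ_two]
      ring
    rw [this]
    simp
  have h6 : ((N : ℕ) : ℝ) +ᵥ τ = ModularGroup.T ^ (N : ℤ) • τ := by
    rw [UpperHalfPlane.modular_T_zpow_smul]
    simp
  have h7 : γ • (ModularGroup.T ^ (N : ℤ) • τ) =
      (γ * ModularGroup.T ^ (N : ℤ) * γ⁻¹) • (γ • τ) := by
    rw [← mul_smul, ← mul_smul, inv_mul_cancel_right]
  change F (γ • (((N : ℕ) : ℝ) +ᵥ τ)) = F (γ • τ)
  rw [h6, h7, h2 _ h5]

theorem Reps.isModFun_mulFun [NeZero N] (H : Reps N) (hH : H.IsInt) {f : ℍ → ℂ}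
    (hf : IsModFun N f) : IsModFun N (H.mulFun f) := by
  refine isModFun_of_exists_level (H.mdiff_mulFun hf.1) (H.mulFun_invariant hf.2.1) fun γ => ?_
  have key : ∀ i, ∃ δ : ℕ, 0 < δ ∧ (fun τ : ℍ => f (H.α i • (γ • τ))) ∈ MerInf (N * δ) := by
    intro i
    obtain ⟨A, hA⟩ := hH i
    have hdet : 0 < A.det := by
      have h1 := H.det_pos i
      rw [Matrix.GeneralLinearGroup.val_det_apply, hA, ← Int.cast_det] at h1
      exact_mod_cast h1
    exact exists_mem_MerInf_comp_smul hf.2.2 (H.α i) A hA hdet γ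
  choose δ hδ hmem using key
  have hpos : 0 < N * ∏ i, δ i :=
    Nat.mul_pos (Nat.pos_of_ne_zero (NeZero.ne N)) (Finset.prod_pos fun i _ => hδ i)
  have : NeZero (N * ∏ i, δ i) := ⟨hpos.ne'⟩
  refine ⟨N * ∏ i, δ i, hpos, ?_⟩
  have h1 : (fun τ : ℍ => H.mulFun f (γ • τ)) = ∏ i, (fun τ : ℍ => f (H.α i • (γ • τ))) := by
    funext τ
    rw [Finset.prod_apply]
    rfl
  rw [h1]
  refine Subring.prod_mem _ fun i _ => ?_
  exact mem_MerInf_of_dvd (Nat.mul_dvd_mul_left N (Finset.dvd_prod_of_mem δ (Finset.mem_univ i)))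
    (hmem i)

theorem Reps.hasRoot_mulFun [NeZero N] (H : Reps N) (hH : H.IsInt) {n : ℕ} [NeZero n]
    {c w : ℍ → ℂ} {φ : Additive (Gamma0 N) →+ ZMod n} (h : HasRoot N n c w φ) :
    HasRoot N n (H.mulFun c) (H.mulFun w) (H.op (ZMod n) φ) where
  modFun := H.isModFun_mulFun hH h.modFun
  ne_zero := H.mulFun_ne_zero h.modFun.1 h.ne_zero
  mdiff := H.mdiff_mulFun h.mdiff
  pow_eq τ := by
    rw [Reps.mulFun_apply, Reps.mulFun_apply, ← Finset.prod_pow]
    exact Finset.prod_congr rfl fun i _ => h.pow_eq _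
  char := H.mulFun_smul h.char

end Fermat.Agent.GR.B
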