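import Fermat.Agent.GR.B.HeckeExp
import Fermat.Agent.GR.B.ModFrac
import Fermat.Agent.GR.B.LatDefs

/-!
# GR-B, Kummer side, file K6: (B1) and (B3)

The formal multiplicative Hecke operators preserve the function field `FF ℂ N`, and act on the
characters `χ_u` by the transfer formula `Reps.op`.
-/

set_option autoImplicit false

open UpperHalfPlane ModularCurve Matrix.SpecialLinearGroup CongruenceSubgroup
open scoped MatrixGroups Manifold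

namespace Fermat.Agent.GR.B

open Fermat.Agent.S24 Fermat.Agent.S28 Fermat.Agent.GR.A

variable {N : ℕ}

private theorem KummerMain_mem_FF [NeZero N] (T : LaurentSeries ℂ → LaurentSeries ℂ)
    (hmul : ∀ u v, T (u * v) = T u * T v) (h0 : ∀ u, u ≠ 0 → T u ≠ 0)
    (hmod : ∀ (a : ℍ → ℂ) (fa : LaurentSeries ℂ), IsModFun N a → IsExp 1 a fa → T fa ∈ FF ℂ N)
    {u : LaurentSeries ℂ} (hu : u ∈ FF ℂ N) : T u ∈ FF ℂ N := by
  obtain ⟨a, b, fa, fb, ha, hb, hea, heb, hfb0, hufb⟩ := exists_modFun_frac hu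
  have h1 : T u * T fb = T fa := by rw [← hmul, hufb]
  have h2 : T u = T fa / T fb := by rw [eq_div_iff (h0 _ hfb0), h1]
  rw [h2]
  exact div_mem (hmod a fa ha hea) (hmod b fb hb heb)

private theorem KummerMain_kummerEquiv (T : LaurentSeries ℂ → LaurentSeries ℂ)
    (hmul : ∀ u v, T (u * v) = T u * T v) (h0 : ∀ u, u ≠ 0 → T u ≠ 0)
    (hFF : ∀ u ∈ FF ℂ N, T u ∈ FF ℂ N) {n : ℕ} {u u' : LaurentSeries ℂ}
    (h : KummerEquiv N n u u') : KummerEquiv N n (T u) (T u') := by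
  obtain ⟨z, hz, hz0, rfl⟩ := h
  refine ⟨T z, hFF z hz, h0 z hz0, ?_⟩
  have h1 : T 1 = 1 := by
    have h2 : T 1 * T 1 = T 1 * 1 := by rw [← hmul, mul_one, mul_one]
    exact mul_left_cancel₀ (h0 1 one_ne_zero) h2
  have hpow : ∀ k : ℕ, T (z ^ k) = T z ^ k := by
    intro k
    induction k with
    | zero => rw [pow_zero, pow_zero, h1]
    | succ k ih => rw [pow_succ, pow_succ, hmul, ih]
  rw [hmul, hpow]

private theorem KummerMain_normT_ne_zero (p : ℕ) [NeZero p] (ζ : ℂˣ)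
    (hζ : IsPrimitiveRoot ζ p) {u : LaurentSeries ℂ} (hu : u ≠ 0) : normT p ζ u ≠ 0 :=
  right_ne_zero_of_mul (heckeMulT_ne_zero p ζ hζ hu)

private theorem KummerMain_heckeMulT_eq (p : ℕ) [NeZero p] (ζ : ℂˣ)
    (hζ : IsPrimitiveRoot ζ p) (u : LaurentSeries ℂ) :
    heckeMulT p ζ u = heckeMulT p (rootU 1 p) u := by
  unfold heckeMulT
  rw [normT_eq_of_isPrimitiveRoot p ζ (rootU 1 p) hζ (isPrimitiveRoot_rootU p)]

/-- (B1) for `T_p`, `p ∤ N`. -/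
theorem heckeMulT_mem_FF [NeZero N] (p : ℕ) [Fact p.Prime] (hpN : ¬ p ∣ N) (ζ : ℂˣ)
    (hζ : IsPrimitiveRoot ζ p) {u : LaurentSeries ℂ} (hu : u ∈ FF ℂ N) :
    heckeMulT p ζ u ∈ FF ℂ N := by
  refine KummerMain_mem_FF (heckeMulT p ζ) (heckeMulT_mul p ζ hζ)
    (fun u hu => heckeMulT_ne_zero p ζ hζ hu) ?_ hu
  intro a fa ha hea
  rw [KummerMain_heckeMulT_eq p ζ hζ]
  exact IsModFun.mem_FF ((repsT p hpN).isModFun_mulFun (repsT_isInt p hpN) ha)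
    (isExp_mulFun_repsT p hpN hea)

/-- (B1) for `U_p`, `p ∣ N`. -/
theorem normT_mem_FF [NeZero N] (p : ℕ) [NeZero p] (hpN : p ∣ N) (ζ : ℂˣ)
    (hζ : IsPrimitiveRoot ζ p) {u : LaurentSeries ℂ} (hu : u ∈ FF ℂ N) :
    normT p ζ u ∈ FF ℂ N := by
  refine KummerMain_mem_FF (normT p ζ) (normT_mul p ζ hζ)
    (fun u hu => KummerMain_normT_ne_zero p ζ hζ hu) ?_ hu
  intro a fa ha hea
  rw [normT_eq_of_isPrimitiveRoot p ζ (rootU 1 p) hζ (isPrimitiveRoot_rootU p)]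
  exact IsModFun.mem_FF ((repsU p hpN).isModFun_mulFun (repsU_isInt p hpN) ha)
    (isExp_mulFun_repsU p hpN hea)

theorem kummerEquiv_heckeMulT [NeZero N] (p : ℕ) [Fact p.Prime] (hpN : ¬ p ∣ N) (ζ : ℂˣ)
    (hζ : IsPrimitiveRoot ζ p) {n : ℕ} {u u' : LaurentSeries ℂ} (h : KummerEquiv N n u u') :
    KummerEquiv N n (heckeMulT p ζ u) (heckeMulT p ζ u') :=
  KummerMain_kummerEquiv (heckeMulT p ζ) (heckeMulT_mul p ζ hζ)
    (fun _ hu => heckeMulT_ne_zero p ζ hζ hu) (fun _ hu => heckeMulT_mem_FF p hpN ζ hζ hu) h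

theorem kummerEquiv_normT [NeZero N] (p : ℕ) [NeZero p] (hpN : p ∣ N) (ζ : ℂˣ)
    (hζ : IsPrimitiveRoot ζ p) {n : ℕ} {u u' : LaurentSeries ℂ} (h : KummerEquiv N n u u') :
    KummerEquiv N n (normT p ζ u) (normT p ζ u') :=
  KummerMain_kummerEquiv (normT p ζ) (normT_mul p ζ hζ)
    (fun _ hu => KummerMain_normT_ne_zero p ζ hζ hu) (fun _ hu => normT_mem_FF p hpN ζ hζ hu) h

/-- (B3) for `T_p`, `p ∤ N`. -/
theorem hasChar_heckeMulT [NeZero N] (p : ℕ) [Fact p.Prime] (hpN : ¬ p ∣ N) (ζ : ℂˣ)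
    (hζ : IsPrimitiveRoot ζ p) {n : ℕ} [NeZero n] {u : LaurentSeries ℂ}
    {φ : Additive (Gamma0 N) →+ ZMod n} (h : HasChar N n u φ) :
    HasChar N n (heckeMulT p ζ u) ((repsT p hpN).op (ZMod n) φ) := by
  obtain ⟨c, w, f, hr, he, hk⟩ := h
  refine ⟨(repsT p hpN).mulFun c, (repsT p hpN).mulFun w, heckeMulT p ζ f,
    (repsT p hpN).hasRoot_mulFun (repsT_isInt p hpN) hr, ?_, kummerEquiv_heckeMulT p hpN ζ hζ hk⟩
  rw [KummerMain_heckeMulT_eq p ζ hζ]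
  exact isExp_mulFun_repsT p hpN he

/-- (B3) for `U_p`, `p ∣ N`. -/
theorem hasChar_normT [NeZero N] (p : ℕ) [NeZero p] (hpN : p ∣ N) (ζ : ℂˣ)
    (hζ : IsPrimitiveRoot ζ p) {n : ℕ} [NeZero n] {u : LaurentSeries ℂ}
    {φ : Additive (Gamma0 N) →+ ZMod n} (h : HasChar N n u φ) :
    HasChar N n (normT p ζ u) ((repsU p hpN).op (ZMod n) φ) := by
  obtain ⟨c, w, f, hr, he, hk⟩ := h
  refine ⟨(repsU p hpN).mulFun c, (repsU p hpN).mulFun w, normT p ζ f,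
    (repsU p hpN).hasRoot_mulFun (repsU_isInt p hpN) hr, ?_, kummerEquiv_normT p hpN ζ hζ hk⟩
  rw [normT_eq_of_isPrimitiveRoot p ζ (rootU 1 p) hζ (isPrimitiveRoot_rootU p)]
  exact isExp_mulFun_repsU p hpN he

end Fermat.Agent.GR.B
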