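import Fermat.Agent.GR.B.LatDefs

/-!
# GR-B, file 7b (task B-LAT-A): `Λ` is free of finite rank, `ℂ ⊗ Λ = Hom_par(Γ₀(N), ℂ)`,
`Λ / n Λ = {ψ : Γ₀(N) → ℤ/n killing elliptic and parabolic elements}`.
Everything follows formally from a `UnivBasis N`.
-/

set_option autoImplicit false

open CongruenceSubgroup Matrix.SpecialLinearGroup UpperHalfPlane ModularCurve ModularCurve.Period
open scoped MatrixGroups TensorProduct

namespace Fermat.Agent.GR.B

variable {N : ℕ}

/-- in a torsion free group, killing parabolic elements is enough. -/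
theorem kills_iff_isParabolicHom {B : Type*} [AddCommGroup B] [IsAddTorsionFree B]
    (ψ : Additive (Gamma0 N) →+ B) : Kills ψ ↔ IsParabolicHom (Gamma0 N) ψ := by
  constructor
  · intro h γ hγ
    exact h γ (Or.inr hγ)
  · rintro h γ (hγ | hγ)
    · obtain ⟨k, hk, hpow⟩ := isOfFinOrder_iff_pow_eq_one.mp hγ
      have hpow' : γ ^ k = 1 := Subtype.ext (by simpa using hpow)
      have h1 : k • ψ (Additive.ofMul γ) = 0 := by
        rw [← map_nsmul, ← ofMul_pow, hpow', ofMul_one, map_zero]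
      exact (nsmul_eq_zero_iff_right hk.ne').mp h1
    · exact h γ hγ

/-- the elements of `Λ` given by a universal basis -/
def UnivBasis.LatBasis_vec (U : UnivBasis N) (i : Fin U.r) : Lam N :=
  ⟨U.Φ i, (kills_iff_isParabolicHom _).mp (U.kills i)⟩

theorem LatBasis_kills (x : Lam N) : Kills (x : Additive (Gamma0 N) →+ ℤ) :=
  (kills_iff_isParabolicHom _).mpr x.2

theorem UnivBasis.LatBasis_sum_apply (U : UnivBasis N) (c : Fin U.r → ℤ)
    (γ : Additive (Gamma0 N)) :
    ((∑ i, c i • U.LatBasis_vec i : Lam N) : Additive (Gamma0 N) →+ ℤ) γ =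
      ∑ i, U.Φ i γ • c i := by
  rw [Submodule.coe_sum, AddMonoidHom.finsetSum_apply]
  refine Finset.sum_congr rfl fun i _ => ?_
  simp [UnivBasis.LatBasis_vec, mul_comm]

/-- `Φ` is a `ℤ`-basis of `Λ`. -/
theorem UnivBasis.exists_basis (U : UnivBasis N) :
    ∃ b : Module.Basis (Fin U.r) ℤ (Lam N), ∀ i, ((b i : Lam N) : Additive (Gamma0 N) →+ ℤ) = U.Φ i := by
  have hli : LinearIndependent ℤ U.LatBasis_vec := by
    rw [Fintype.linearIndependent_iff]
    intro g hg
    obtain ⟨b0, -, huniq⟩ := U.univ ℤ 0 (fun _ _ => rfl)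
    have h1 : g = b0 := huniq g fun γ => by
      rw [← U.LatBasis_sum_apply g γ, hg]; rfl
    have h2 : (0 : Fin U.r → ℤ) = b0 := huniq 0 fun γ => by simp
    intro i
    rw [h1, ← h2]; rfl
  have hsp : ⊤ ≤ Submodule.span ℤ (Set.range U.LatBasis_vec) := by
    intro x _
    obtain ⟨c, hc, -⟩ := U.univ ℤ (x : Additive (Gamma0 N) →+ ℤ) (LatBasis_kills x)
    have hx : x = ∑ i, c i • U.LatBasis_vec i := by
      apply Subtype.ext
      refine DFunLike.ext _ _ fun γ => ?_
      rw [U.LatBasis_sum_apply c γ, hc γ]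
    rw [hx]
    exact Submodule.sum_mem _ fun i _ =>
      Submodule.smul_mem _ _ (Submodule.subset_span ⟨i, rfl⟩)
  refine ⟨Module.Basis.mk hli hsp, fun i => ?_⟩
  rw [Module.Basis.mk_apply]
  rfl

theorem UnivBasis.free (U : UnivBasis N) : Module.Free ℤ (Lam N) := by
  obtain ⟨b, -⟩ := U.exists_basis
  exact Module.Free.of_basis b

theorem UnivBasis.finite (U : UnivBasis N) : Module.Finite ℤ (Lam N) := by
  obtain ⟨b, -⟩ := U.exists_basis
  exact Module.Finite.of_basis b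

/-- the `ℤ`-linear map `Λ → Hom_par(Γ₀(N), ℂ)` -/
noncomputable def LatBasis_castLin (N : ℕ) : Lam N →ₗ[ℤ] ↥(parabolicHoms ℂ (Gamma0 N) ℂ) where
  toFun x := ⟨castHom N ℂ x, fun γ hγ => by
    rw [castHom_apply, x.2 γ hγ, Int.cast_zero]⟩
  map_add' x y := by
    apply Subtype.ext
    refine DFunLike.ext _ _ fun γ => ?_
    simp
  map_smul' c x := by
    apply Subtype.ext
    refine DFunLike.ext _ _ fun γ => ?_
    simp

theorem LatBasis_coe_castLin (x : Lam N) :
    ((LatBasis_castLin N x : ↥(parabolicHoms ℂ (Gamma0 N) ℂ)) : Additive (Gamma0 N) →+ ℂ) =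
      castHom N ℂ x := rfl

theorem UnivBasis.LatBasis_sumC_apply (U : UnivBasis N) (c : Fin U.r → ℂ)
    (γ : Additive (Gamma0 N)) :
    ((∑ i, c i • LatBasis_castLin N (U.LatBasis_vec i) : ↥(parabolicHoms ℂ (Gamma0 N) ℂ)) :
      Additive (Gamma0 N) →+ ℂ) γ = ∑ i, U.Φ i γ • c i := by
  rw [Submodule.coe_sum, AddMonoidHom.finsetSum_apply]
  refine Finset.sum_congr rfl fun i _ => ?_
  simp [UnivBasis.LatBasis_vec, LatBasis_coe_castLin, mul_comm]

theorem UnivBasis.LatBasis_exists_basisC (U : UnivBasis N) :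
    ∃ b : Module.Basis (Fin U.r) ℂ ↥(parabolicHoms ℂ (Gamma0 N) ℂ),
      ∀ i, b i = LatBasis_castLin N (U.LatBasis_vec i) := by
  have hli : LinearIndependent ℂ fun i => LatBasis_castLin N (U.LatBasis_vec i) := by
    rw [Fintype.linearIndependent_iff]
    intro g hg
    obtain ⟨b0, -, huniq⟩ := U.univ ℂ 0 (fun _ _ => rfl)
    have h1 : g = b0 := huniq g fun γ => by
      rw [← U.LatBasis_sumC_apply g γ, hg]; rfl
    have h2 : (0 : Fin U.r → ℂ) = b0 := huniq 0 fun γ => by simp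
    intro i
    rw [h1, ← h2]; rfl
  have hsp : ⊤ ≤ Submodule.span ℂ (Set.range fun i => LatBasis_castLin N (U.LatBasis_vec i)) := by
    intro x _
    obtain ⟨c, hc, -⟩ := U.univ ℂ (x : Additive (Gamma0 N) →+ ℂ)
      ((kills_iff_isParabolicHom _).mpr x.2)
    have hx : x = ∑ i, c i • LatBasis_castLin N (U.LatBasis_vec i) := by
      apply Subtype.ext
      refine DFunLike.ext _ _ fun γ => ?_
      rw [U.LatBasis_sumC_apply c γ, hc γ]
    rw [hx]
    exact Submodule.sum_mem _ fun i _ =>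
      Submodule.smul_mem _ _ (Submodule.subset_span ⟨i, rfl⟩)
  refine ⟨Module.Basis.mk hli hsp, fun i => ?_⟩
  rw [Module.Basis.mk_apply]

/-- `ℂ ⊗ Λ = Hom_par(Γ₀(N), ℂ)`. -/
theorem UnivBasis.exists_tensorEquiv (U : UnivBasis N) :
    ∃ e : (ℂ ⊗[ℤ] Lam N) ≃ₗ[ℂ] ↥(parabolicHoms ℂ (Gamma0 N) ℂ),
      ∀ (c : ℂ) (x : Lam N),
        ((e (c ⊗ₜ[ℤ] x) : ↥(parabolicHoms ℂ (Gamma0 N) ℂ)) : Additive (Gamma0 N) →+ ℂ) =
          c • castHom N ℂ x := by
  obtain ⟨b, hb⟩ := U.exists_basis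
  obtain ⟨b', hb'⟩ := U.LatBasis_exists_basisC
  have hbv : ∀ i, b i = U.LatBasis_vec i := fun i => Subtype.ext (hb i)
  let e := (Algebra.TensorProduct.basis ℂ b).equiv b' (Equiv.refl _)
  have hfe : (LatBasis_castLin N).liftBaseChange ℂ = e.toLinearMap := by
    refine (Algebra.TensorProduct.basis ℂ b).ext fun i => ?_
    rw [LinearEquiv.coe_coe, Module.Basis.equiv_apply, Algebra.TensorProduct.basis_apply,
      LinearMap.liftBaseChange_tmul, one_smul, Equiv.refl_apply, hb', hbv]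
  refine ⟨e, fun c x => ?_⟩
  have : e (c ⊗ₜ[ℤ] x) = (LatBasis_castLin N).liftBaseChange ℂ (c ⊗ₜ[ℤ] x) := by
    rw [hfe]; rfl
  rw [this, LinearMap.liftBaseChange_tmul]
  rfl

theorem UnivBasis.LatBasis_castHom_sum (U : UnivBasis N) (n : ℕ) (c : Fin U.r → ℤ)
    (γ : Additive (Gamma0 N)) :
    castHom N (ZMod n) (∑ i, c i • U.LatBasis_vec i) γ = ∑ i, U.Φ i γ • (c i : ZMod n) := by
  rw [castHom_apply, U.LatBasis_sum_apply c γ]
  push_cast
  refine Finset.sum_congr rfl fun i _ => ?_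
  simp

theorem UnivBasis.LatBasis_exists_coord (U : UnivBasis N) (x : Lam N) :
    ∃ c : Fin U.r → ℤ, x = ∑ i, c i • U.LatBasis_vec i := by
  obtain ⟨c, hc, -⟩ := U.univ ℤ (x : Additive (Gamma0 N) →+ ℤ) (LatBasis_kills x)
  refine ⟨c, ?_⟩
  apply Subtype.ext
  refine DFunLike.ext _ _ fun γ => ?_
  rw [U.LatBasis_sum_apply c γ, hc γ]

/-- reduction mod `n`: kernel. -/
theorem UnivBasis.castHom_zmod_eq_zero_iff (U : UnivBasis N) (n : ℕ) (x : Lam N) :
    castHom N (ZMod n) x = 0 ↔ ∃ y : Lam N, x = (n : ℤ) • y := by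
  constructor
  · intro h
    obtain ⟨c, rfl⟩ := U.LatBasis_exists_coord x
    obtain ⟨b0, -, huniq⟩ := U.univ (ZMod n) 0 (fun _ _ => rfl)
    have h1 : (fun i => (c i : ZMod n)) = b0 := huniq _ fun γ => by
      rw [← U.LatBasis_castHom_sum n c γ, h]
    have h2 : (0 : Fin U.r → ZMod n) = b0 := huniq 0 fun γ => by simp
    have h3 : ∀ i, (n : ℤ) ∣ c i := by
      intro i
      rw [← ZMod.intCast_zmod_eq_zero_iff_dvd]
      have := congrFun (h1.trans h2.symm) i
      simpa using this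
    choose d hd using h3
    refine ⟨∑ i, d i • U.LatBasis_vec i, ?_⟩
    rw [Finset.smul_sum]
    refine Finset.sum_congr rfl fun i _ => ?_
    rw [smul_smul, ← hd i]
  · rintro ⟨y, rfl⟩
    refine DFunLike.ext _ _ fun γ => ?_
    simp

/-- reduction mod `n`: image. -/
theorem UnivBasis.exists_castHom_zmod_eq (U : UnivBasis N) (n : ℕ) (ψ : Additive (Gamma0 N) →+ ZMod n)
    (hψ : Kills ψ) : ∃ x : Lam N, castHom N (ZMod n) x = ψ := by
  obtain ⟨b, hb, -⟩ := U.univ (ZMod n) ψ hψ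
  have hlift : ∀ i, ∃ c : ℤ, (c : ZMod n) = b i := fun i => ZMod.intCast_surjective (b i)
  choose c hc using hlift
  refine ⟨∑ i, c i • U.LatBasis_vec i, ?_⟩
  refine DFunLike.ext _ _ fun γ => ?_
  rw [U.LatBasis_castHom_sum n c γ, hb γ]
  simp only [hc]

theorem kills_castHom (B : Type*) [AddCommGroupWithOne B] (x : Lam N) : Kills (castHom N B x) := by
  intro γ hγ
  rw [castHom_apply, LatBasis_kills x γ hγ, Int.cast_zero]

/-- reduction is Hecke equivariant. -/
theorem castHom_opLam (B : Type*) [AddCommGroupWithOne B] (H : Reps N) (x : Lam N) :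
    castHom N B (opLam H x) = H.op B (castHom N B x) :=
  (H.op_comp (Int.castAddHom B) (x : Additive (Gamma0 N) →+ ℤ)).symm

theorem castHom_conjLam (n : ℕ) (x : Lam N) :
    castHom N (ZMod n) (conjLam N x) = - charInvolution N ℤ (ZMod n) (castHom N (ZMod n) x) := by
  refine DFunLike.ext _ _ fun γ => ?_
  simp [conjLam]

end Fermat.Agent.GR.B
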