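import Fermat.Agent.GR.B.LatDefs
import Fermat.Agent.GR.B.ES
import Fermat.Agent.GR.H.Iface

/-!
# GR-B, file 7c (task B-LAT-B): the full Hecke algebra acts on `Λ`
-/

set_option autoImplicit false
set_option linter.unusedSectionVars false

open CongruenceSubgroup Matrix.SpecialLinearGroup UpperHalfPlane ModularCurve ModularCurve.Period
open scoped MatrixGroups

namespace Fermat.Agent.GR.B

variable (N : ℕ) [NeZero N]

theorem heckeP_mem (p : ℕ) (hp : p.Prime) :
    heckeP N p hp ∈ CuspForm.heckeAlgebra N 2 (∅ : Set ℕ) := by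
  by_cases h : p ∣ N
  · rw [heckeP_of_dvd N hp h]
    exact CuspForm.heckeULin_mem_heckeAlgebra hp h (Set.notMem_empty p)
  · rw [heckeP_of_not_dvd N hp h]
    exact CuspForm.heckeTLin_mem_heckeAlgebra hp h (Set.notMem_empty p)

/-- the generator `T_p` / `U_p` of the full Hecke algebra. -/
noncomputable def genP (p : ℕ) (hp : p.Prime) : H.HeckeFull N := ⟨heckeP N p hp, heckeP_mem N p hp⟩

/-- induction principle: the full Hecke algebra is generated by the `genP`. -/
theorem heckeFull_induction {P : H.HeckeFull N → Prop}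
    (hgen : ∀ p hp, P (genP N p hp)) (hint : ∀ n : ℤ, P (n : H.HeckeFull N))
    (hadd : ∀ s t, P s → P t → P (s + t)) (hmul : ∀ s t, P s → P t → P (s * t))
    (t : H.HeckeFull N) : P t := by
  obtain ⟨t, ht⟩ := t
  refine Algebra.adjoin_induction
    (p := fun x hx => P (⟨x, hx⟩ : H.HeckeFull N)) ?_ ?_ ?_ ?_ ht
  · rintro x (⟨ℓ, hℓ, hℓN, -, rfl⟩ | ⟨q, hqN, hq, -, rfl⟩)
    · have : (⟨CuspForm.heckeTLin 2 hℓ hℓN, Algebra.subset_adjoin
          (CuspForm.heckeTLin_mem_heckeGenerators hℓ hℓN (Set.notMem_empty ℓ))⟩ :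
          H.HeckeFull N) = genP N ℓ hℓ :=
        Subtype.ext (heckeP_of_not_dvd N hℓ hℓN).symm
      exact this ▸ hgen ℓ hℓ
    · have : (⟨CuspForm.heckeULin 2 hqN, Algebra.subset_adjoin
          (CuspForm.heckeULin_mem_heckeGenerators hq hqN (Set.notMem_empty q))⟩ :
          H.HeckeFull N) = genP N q hq :=
        Subtype.ext (heckeP_of_dvd N hq hqN).symm
      exact this ▸ hgen q hq
  · intro r
    have : (⟨algebraMap ℤ _ r, Subalgebra.algebraMap_mem _ r⟩ : H.HeckeFull N) =
        (r : H.HeckeFull N) := by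
      apply Subtype.ext
      simp
    exact this ▸ hint r
  · intro x y hx hy h1 h2
    exact hadd _ _ h1 h2
  · intro x y hx hy h1 h2
    exact hmul _ _ h1 h2

/-- `(t, x)` are compatible if they correspond under Eichler-Shimura. -/
def Compat (t : Module.End ℂ (CuspForm (Gamma0 N) 2)) (x : Module.End ℤ (Lam N)) : Prop :=
  ∀ (l : Lam N) (f g : CuspForm (Gamma0 N) 2), periodHomPair N (f, g) = castHom N ℂ l →
    periodHomPair N (t f, t g) = castHom N ℂ (x l)

theorem compat_genP (p : ℕ) (hp : p.Prime) : Compat N (heckeP N p hp) (opLam (repsP N p hp)) := by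
  intro l f g hfg
  rw [periodHomPair_heckeP, hfg]
  exact (repsP N p hp).op_comp (Int.castAddHom ℂ) (l : Additive (Gamma0 N) →+ ℤ)

theorem latHecke_castHom_injective : Function.Injective (castHom N ℂ) := by
  intro x y hxy
  apply Subtype.ext
  refine AddMonoidHom.ext fun γ => ?_
  have := DFunLike.congr_fun hxy γ
  rw [castHom_apply, castHom_apply] at this
  exact_mod_cast this

theorem latHecke_castHom_mem (l : Lam N) : castHom N ℂ l ∈ parabolicHoms ℂ (Gamma0 N) ℂ := by
  intro γ hγ
  have h : (l : Additive (Gamma0 N) →+ ℤ) (Additive.ofMul γ) = 0 := l.2 γ hγ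
  rw [castHom_apply, h, Int.cast_zero]

theorem latHecke_exists_pair (l : Lam N) :
    ∃ f g : CuspForm (Gamma0 N) 2, periodHomPair N (f, g) = castHom N ℂ l := by
  have h := latHecke_castHom_mem N l
  rw [← (Fermat.Agent.S21.result N).2] at h
  obtain ⟨⟨f, g⟩, hfg⟩ := h
  exact ⟨f, g, hfg⟩

theorem Compat.unique {t : Module.End ℂ (CuspForm (Gamma0 N) 2)} {x x' : Module.End ℤ (Lam N)}
    (h : Compat N t x) (h' : Compat N t x') : x = x' := by
  ext1 l
  obtain ⟨f, g, hfg⟩ := latHecke_exists_pair N l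
  exact latHecke_castHom_injective N ((h l f g hfg).symm.trans (h' l f g hfg))

theorem latHecke_castHom_add (x y : Lam N) :
    castHom N ℂ (x + y) = castHom N ℂ x + castHom N ℂ y := by
  ext γ
  simp

theorem latHecke_castHom_zsmul (n : ℤ) (x : Lam N) :
    castHom N ℂ (n • x) = (n : ℂ) • castHom N ℂ x := by
  ext γ
  simp

theorem latHecke_compat_int (n : ℤ) :
    Compat N ((n : H.HeckeFull N) : Module.End ℂ (CuspForm (Gamma0 N) 2))
      (n : Module.End ℤ (Lam N)) := by
  intro l f g hfg
  have e1 : ((n : H.HeckeFull N) : Module.End ℂ (CuspForm (Gamma0 N) 2)) =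
      (n : Module.End ℂ (CuspForm (Gamma0 N) 2)) := by simp
  have e2 : ∀ f : CuspForm (Gamma0 N) 2,
      (n : Module.End ℂ (CuspForm (Gamma0 N) 2)) f = (n : ℂ) • f := by
    intro f
    rw [Module.End.intCast_apply, Int.cast_smul_eq_zsmul]
  have e3 : (n : Module.End ℤ (Lam N)) l = n • l := Module.End.intCast_apply n l
  rw [e1, e2, e2, e3, latHecke_castHom_zsmul, ← hfg, ← map_smul, Prod.smul_mk]

theorem latHecke_compat_add {s t : Module.End ℂ (CuspForm (Gamma0 N) 2)}
    {x y : Module.End ℤ (Lam N)} (hs : Compat N s x) (ht : Compat N t y) :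
    Compat N (s + t) (x + y) := by
  intro l f g hfg
  rw [LinearMap.add_apply, LinearMap.add_apply, LinearMap.add_apply, latHecke_castHom_add,
    ← hs l f g hfg, ← ht l f g hfg, ← map_add, Prod.mk_add_mk]

theorem latHecke_compat_mul {s t : Module.End ℂ (CuspForm (Gamma0 N) 2)}
    {x y : Module.End ℤ (Lam N)} (hs : Compat N s x) (ht : Compat N t y) :
    Compat N (s * t) (x * y) := by
  intro l f g hfg
  exact hs (y l) (t f) (t g) (ht l f g hfg)

theorem latHecke_compat_one : Compat N 1 1 := fun _ _ _ hfg => hfg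

theorem latHecke_compat_zero : Compat N 0 0 := by
  intro l f g _
  have : castHom N ℂ ((0 : Module.End ℤ (Lam N)) l) = 0 := by
    ext γ
    simp
  rw [this, LinearMap.zero_apply, LinearMap.zero_apply]
  exact map_zero _

theorem latHecke_exists_compat (t : H.HeckeFull N) :
    ∃ x : Module.End ℤ (Lam N), Compat N (t : Module.End ℂ (CuspForm (Gamma0 N) 2)) x := by
  refine heckeFull_induction N (P := fun t => ∃ x : Module.End ℤ (Lam N),
    Compat N (t : Module.End ℂ (CuspForm (Gamma0 N) 2)) x) ?_ ?_ ?_ ?_ t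
  · intro p hp
    exact ⟨_, compat_genP N p hp⟩
  · intro n
    exact ⟨_, latHecke_compat_int N n⟩
  · rintro s t ⟨x, hx⟩ ⟨y, hy⟩
    exact ⟨x + y, latHecke_compat_add N hx hy⟩
  · rintro s t ⟨x, hx⟩ ⟨y, hy⟩
    exact ⟨x * y, latHecke_compat_mul N hx hy⟩

/-- MAIN STATEMENT. -/
theorem exists_hecke :
    ∃ hecke : H.HeckeFull N →+* Module.End ℤ (Lam N),
      (∀ t : H.HeckeFull N, Compat N (t : Module.End ℂ (CuspForm (Gamma0 N) 2)) (hecke t)) ∧
      ∀ p hp, hecke (genP N p hp) = opLam (repsP N p hp) := by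
  choose F hF using latHecke_exists_compat N
  refine ⟨{ toFun := F
            map_one' := (hF 1).unique N (latHecke_compat_one N)
            map_mul' := fun s t => (hF (s * t)).unique N (latHecke_compat_mul N (hF s) (hF t))
            map_zero' := (hF 0).unique N (latHecke_compat_zero N)
            map_add' := fun s t => (hF (s + t)).unique N (latHecke_compat_add N (hF s) (hF t)) },
    hF, fun p hp => (hF (genP N p hp)).unique N (compat_genP N p hp)⟩

/-- The action of the full Hecke algebra on `Λ`. -/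
noncomputable def heckeLam : H.HeckeFull N →+* Module.End ℤ (Lam N) := (exists_hecke N).choose

theorem compat_heckeLam (t : H.HeckeFull N) :
    Compat N (t : Module.End ℂ (CuspForm (Gamma0 N) 2)) (heckeLam N t) :=
  (exists_hecke N).choose_spec.1 t

theorem heckeLam_genP (p : ℕ) (hp : p.Prime) :
    heckeLam N (genP N p hp) = opLam (repsP N p hp) :=
  (exists_hecke N).choose_spec.2 p hp

theorem heckeLam_T {ℓ : ℕ} (hℓ : ℓ.Prime) (hℓN : ¬ ℓ ∣ N) :
    heckeLam N (H.HeckeFull.T hℓ hℓN) = opLam (repsP N ℓ hℓ) := by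
  have : H.HeckeFull.T hℓ hℓN = genP N ℓ hℓ := Subtype.ext (heckeP_of_not_dvd N hℓ hℓN).symm
  rw [this, heckeLam_genP]

theorem latHecke_involLam_mul_involLam : involLam N * involLam N = 1 := by
  ext1 x
  apply Subtype.ext
  exact charInvolution_charInvolution N ℤ ℤ (x : Additive (Gamma0 N) →+ ℤ)

theorem conjLam_mul_conjLam : conjLam N * conjLam N = 1 := by
  rw [conjLam, neg_mul_neg, latHecke_involLam_mul_involLam]

theorem latHecke_involLam_comm_opLam (p : ℕ) (hp : p.Prime) :
    involLam N * opLam (repsP N p hp) = opLam (repsP N p hp) * involLam N := by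
  ext1 x
  apply Subtype.ext
  exact (op_charInvolution_P N p hp ℤ ℤ (x : Additive (Gamma0 N) →+ ℤ)).symm

theorem conjLam_comm (t : H.HeckeFull N) : conjLam N * heckeLam N t = heckeLam N t * conjLam N := by
  refine heckeFull_induction N
    (P := fun t => conjLam N * heckeLam N t = heckeLam N t * conjLam N) ?_ ?_ ?_ ?_ t
  · intro p hp
    rw [heckeLam_genP, conjLam, neg_mul, mul_neg, latHecke_involLam_comm_opLam]
  · intro n
    rw [map_intCast]
    exact ((Int.cast_commute n (conjLam N)).eq).symm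
  · intro s t hs ht
    rw [map_add, mul_add, add_mul, hs, ht]
  · intro s t hs ht
    rw [map_mul, ← mul_assoc, hs, mul_assoc, ht, mul_assoc]

end Fermat.Agent.GR.B
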