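import Fermat.Agent.GR.B.LatBasis
import Fermat.Agent.GR.B.LatHecke
import Fermat.Agent.GR.H.EigenChar

/-!
# GR-B, file 7d (task B-LAT-C): `eigen_dim`
-/

set_option autoImplicit false

open CongruenceSubgroup Matrix.SpecialLinearGroup UpperHalfPlane ModularCurve ModularCurve.Period
open scoped MatrixGroups TensorProduct

namespace Fermat.Agent.GR.B

variable (N : ℕ) [NeZero N]

/-- Eichler-Shimura (S21) as a linear equivalence `S₂ × S₂ ≃ Hom_par(Γ₀(N), ℂ)`. -/
noncomputable def LatEigen_P :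
    (CuspForm (Gamma0 N) 2 × CuspForm (Gamma0 N) 2) ≃ₗ[ℂ] ↥(parabolicHoms ℂ (Gamma0 N) ℂ) :=
  (LinearEquiv.ofInjective (periodHomPair N) (Fermat.Agent.S21.result N).1).trans
    (LinearEquiv.ofEq _ _ (Fermat.Agent.S21.result N).2)

theorem LatEigen_P_coe (x : CuspForm (Gamma0 N) 2 × CuspForm (Gamma0 N) 2) :
    ((LatEigen_P N x : ↥(parabolicHoms ℂ (Gamma0 N) ℂ)) : Additive (Gamma0 N) →+ ℂ) =
      periodHomPair N x := rfl

omit [NeZero N] in
theorem LatEigen_castHom_involLam (l : Lam N) :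
    charInvolution N ℂ ℂ (castHom N ℂ l) = castHom N ℂ (involLam N l) := rfl

omit [NeZero N] in
theorem LatEigen_castHom_neg (l : Lam N) : castHom N ℂ (-l) = - castHom N ℂ l := by
  refine AddMonoidHom.ext fun γ => ?_
  simp

/-- the conjugation analogue of `Compat`. -/
theorem LatEigen_compat_conj (l : Lam N) (f g : CuspForm (Gamma0 N) 2)
    (h : periodHomPair N (f, g) = castHom N ℂ l) :
    periodHomPair N (-f, g) = castHom N ℂ (conjLam N l) := by
  have h1 : periodHomPair N (-f, g) = - periodHomPair N (f, -g) := by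
    rw [← map_neg]
    congr 1
    simp
  rw [h1, ← charInvolution_periodHomPair, h, LatEigen_castHom_involLam, ← LatEigen_castHom_neg]
  rfl

/-- Transport principle: a pair of operators `(A, x)` on `S₂ × S₂` and `Λ` which correspond on the
lattice correspond on all of `ℂ ⊗ Λ`. -/
theorem LatEigen_transport
    (e : (ℂ ⊗[ℤ] Lam N) ≃ₗ[ℂ] ↥(parabolicHoms ℂ (Gamma0 N) ℂ))
    (he : ∀ (c : ℂ) (x : Lam N),
        ((e (c ⊗ₜ[ℤ] x) : ↥(parabolicHoms ℂ (Gamma0 N) ℂ)) : Additive (Gamma0 N) →+ ℂ) =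
          c • castHom N ℂ x)
    (A : (CuspForm (Gamma0 N) 2 × CuspForm (Gamma0 N) 2) →ₗ[ℂ]
      (CuspForm (Gamma0 N) 2 × CuspForm (Gamma0 N) 2))
    (x : Module.End ℤ (Lam N))
    (hA : ∀ (l : Lam N) (p : CuspForm (Gamma0 N) 2 × CuspForm (Gamma0 N) 2),
      periodHomPair N p = castHom N ℂ l → periodHomPair N (A p) = castHom N ℂ (x l))
    (p : CuspForm (Gamma0 N) 2 × CuspForm (Gamma0 N) 2) :
    ((LatEigen_P N).trans e.symm) (A p) = x.baseChange ℂ (((LatEigen_P N).trans e.symm) p) := by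
  set Ψ := (LatEigen_P N).trans e.symm with hΨ
  have key : (Ψ.toLinearMap ∘ₗ A ∘ₗ Ψ.symm.toLinearMap) = x.baseChange ℂ := by
    refine TensorProduct.AlgebraTensorModule.ext fun c l => ?_
    have hc : c ⊗ₜ[ℤ] l = c • ((1 : ℂ) ⊗ₜ[ℤ] l) := by
      rw [TensorProduct.smul_tmul', smul_eq_mul, mul_one]
    rw [hc, map_smul, map_smul]
    congr 1
    rw [LinearMap.baseChange_tmul]
    simp only [LinearMap.comp_apply, LinearEquiv.coe_coe]
    have h0 : periodHomPair N (Ψ.symm ((1 : ℂ) ⊗ₜ[ℤ] l)) = castHom N ℂ l := by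
      rw [← LatEigen_P_coe, hΨ, LinearEquiv.trans_symm, LinearEquiv.trans_apply,
        LinearEquiv.apply_symm_apply, LinearEquiv.symm_symm, he, one_smul]
    have h1 := hA l _ h0
    rw [hΨ, LinearEquiv.trans_apply, LinearEquiv.symm_apply_eq]
    apply Subtype.ext
    rw [LatEigen_P_coe, he, one_smul]
    exact h1
  have := LinearMap.congr_fun key (Ψ p)
  simpa using this

/-- Eichler-Shimura in the form `S₂ × S₂ ≃ ℂ ⊗ Λ`, Hecke equivariant, and `conj` acts by
`(f, g) ↦ (-f, g)`. -/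
theorem exists_esEquiv (U : UnivBasis N) :
    ∃ Ψ : (CuspForm (Gamma0 N) 2 × CuspForm (Gamma0 N) 2) ≃ₗ[ℂ] (ℂ ⊗[ℤ] Lam N),
      (∀ (t : H.HeckeFull N) (f g : CuspForm (Gamma0 N) 2),
        Ψ ((t : Module.End ℂ (CuspForm (Gamma0 N) 2)) f,
            (t : Module.End ℂ (CuspForm (Gamma0 N) 2)) g) =
          (heckeLam N t).baseChange ℂ (Ψ (f, g))) ∧
      ∀ f g : CuspForm (Gamma0 N) 2, Ψ (-f, g) = (conjLam N).baseChange ℂ (Ψ (f, g)) := by
  obtain ⟨e, he⟩ := U.exists_tensorEquiv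
  refine ⟨(LatEigen_P N).trans e.symm, fun t f g => ?_, fun f g => ?_⟩
  · exact LatEigen_transport N e he
      (LinearMap.prodMap (t : Module.End ℂ (CuspForm (Gamma0 N) 2))
        (t : Module.End ℂ (CuspForm (Gamma0 N) 2))) (heckeLam N t)
      (fun l p hp => compat_heckeLam N t l p.1 p.2 hp) (f, g)
  · exact LatEigen_transport N e he
      (LinearMap.prodMap (-LinearMap.id) LinearMap.id) (conjLam N)
      (fun l p hp => LatEigen_compat_conj N l p.1 p.2 hp) (f, g)

theorem LatEigen_mem_cuspEigen (μ : H.HeckeFull N →+* ℂ) (f : CuspForm (Gamma0 N) 2) :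
    f ∈ H.cuspEigen N μ ↔
      ∀ t : H.HeckeFull N, (t : Module.End ℂ (CuspForm (Gamma0 N) 2)) f = μ t • f := by
  simp [H.cuspEigen, Submodule.mem_iInf, sub_eq_zero]

theorem LatEigen_mem_eigenSubSign (μ : H.HeckeFull N →+* ℂ) (s : ℤˣ) (z : ℂ ⊗[ℤ] Lam N) :
    z ∈ H.eigenSubSign (heckeLam N) (conjLam N) ℂ μ s ↔
      (∀ t : H.HeckeFull N, (heckeLam N t).baseChange ℂ z = μ t • z) ∧
        (conjLam N).baseChange ℂ z = (((s : ℤ) : ℂ)) • z := by
  simp [H.eigenSubSign, H.eigenSub, Submodule.mem_iInf, sub_eq_zero]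

/-- MAIN STATEMENT (`TateData.eigen_dim`). -/
theorem eigen_dim (U : UnivBasis N) (μ : H.HeckeFull N →+* ℂ) (s : ℤˣ) :
    Module.finrank ℂ (H.eigenSubSign (heckeLam N) (conjLam N) ℂ μ s) = 1 := by
  obtain ⟨Ψ, hT, hc⟩ := exists_esEquiv N U
  -- description of the eigenspace in terms of pairs
  have hmem : ∀ f g : CuspForm (Gamma0 N) 2,
      Ψ (f, g) ∈ H.eigenSubSign (heckeLam N) (conjLam N) ℂ μ s ↔
        (f ∈ H.cuspEigen N μ ∧ g ∈ H.cuspEigen N μ) ∧
          (-f = (((s : ℤ) : ℂ)) • f ∧ g = (((s : ℤ) : ℂ)) • g) := by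
    intro f g
    rw [LatEigen_mem_eigenSubSign, LatEigen_mem_cuspEigen, LatEigen_mem_cuspEigen, ← hc]
    simp only [← hT, ← map_smul, Ψ.injective.eq_iff, Prod.smul_mk, Prod.mk.injEq]
    rw [forall_and]
  have h2 : ∀ f : CuspForm (Gamma0 N) 2, -f = f ↔ f = 0 := by
    intro f
    constructor
    · intro h
      have h3 : (2 : ℂ) • f = 0 := by
        rw [two_smul]
        nth_rewrite 1 [← h]
        exact neg_add_cancel f
      exact (smul_eq_zero.mp h3).resolve_left two_ne_zero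
    · rintro rfl
      exact neg_zero
  rw [← H.finrank_cuspEigen N μ]
  rcases Int.units_eq_one_or s with rfl | rfl
  · -- `s = 1`: the eigenspace is `Ψ (0 × S₂[μ])`
    have hinj : Function.Injective (Ψ.toLinearMap ∘ₗ LinearMap.inr ℂ (CuspForm (Gamma0 N) 2)
        (CuspForm (Gamma0 N) 2)) := by
      intro a b hab
      simpa using hab
    have heq : H.eigenSubSign (heckeLam N) (conjLam N) ℂ μ 1 =
        (H.cuspEigen N μ).map (Ψ.toLinearMap ∘ₗ LinearMap.inr ℂ (CuspForm (Gamma0 N) 2)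
          (CuspForm (Gamma0 N) 2)) := by
      ext z
      obtain ⟨⟨f, g⟩, rfl⟩ := Ψ.surjective z
      rw [hmem, Submodule.mem_map]
      constructor
      · rintro ⟨⟨-, hg⟩, hf, -⟩
        have hf0 : f = 0 := by
          rw [← h2]; simpa using hf
        exact ⟨g, hg, by simp [hf0]⟩
      · rintro ⟨g', hg', h⟩
        have : ((0 : CuspForm (Gamma0 N) 2), g') = (f, g) := Ψ.injective (by simpa using h)
        obtain ⟨rfl, rfl⟩ := Prod.mk.inj this
        exact ⟨⟨Submodule.zero_mem _, hg'⟩, by simp, by simp⟩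
    rw [heq]
    exact (Submodule.equivMapOfInjective _ hinj _).symm.finrank_eq
  · -- `s = -1`: the eigenspace is `Ψ (S₂[μ] × 0)`
    have hinj : Function.Injective (Ψ.toLinearMap ∘ₗ LinearMap.inl ℂ (CuspForm (Gamma0 N) 2)
        (CuspForm (Gamma0 N) 2)) := by
      intro a b hab
      simpa using hab
    have heq : H.eigenSubSign (heckeLam N) (conjLam N) ℂ μ (-1) =
        (H.cuspEigen N μ).map (Ψ.toLinearMap ∘ₗ LinearMap.inl ℂ (CuspForm (Gamma0 N) 2)
          (CuspForm (Gamma0 N) 2)) := by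
      ext z
      obtain ⟨⟨f, g⟩, rfl⟩ := Ψ.surjective z
      rw [hmem, Submodule.mem_map]
      constructor
      · rintro ⟨⟨hf, -⟩, -, hg⟩
        have hg0 : g = 0 := by
          rw [← h2]; simpa using hg.symm
        exact ⟨f, hf, by simp [hg0]⟩
      · rintro ⟨f', hf', h⟩
        have : (f', (0 : CuspForm (Gamma0 N) 2)) = (f, g) := Ψ.injective (by simpa using h)
        obtain ⟨rfl, rfl⟩ := Prod.mk.inj this
        exact ⟨⟨hf', Submodule.zero_mem _⟩, by simp, by simp⟩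
    rw [heq]
    exact (Submodule.equivMapOfInjective _ hinj _).symm.finrank_eq

end Fermat.Agent.GR.B
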