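import Fermat.Agent.GR.B.MerLevel
import Fermat.Agent.S28.An.TransformA

/-!
# GR-B, Kummer side, file K2: composition with integral matrices of positive determinant
-/

set_option autoImplicit false

open UpperHalfPlane ModularCurve Matrix.SpecialLinearGroup
open scoped MatrixGroups Manifold

namespace Fermat.Agent.GR.B

open Fermat.Agent.S24 Fermat.Agent.S28

theorem MerAff_im_affH {a δ : ℕ} (b : ℤ) (ha : 0 < a) (hδ : 0 < δ) (τ : ℍ) :
    ((affH a b δ τ : ℍ) : ℂ).im = (a : ℝ) * τ.im / δ := by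
  rw [coe_affH b ha hδ, Complex.div_natCast_im]
  simp

/-- composition with `τ ↦ (a τ + b)/δ`. -/
theorem mem_MerInf_comp_affH {h : ℕ} [NeZero h] {f : ℍ → ℂ} (hf : f ∈ MerInf h) {a δ : ℕ} (b : ℤ)
    (ha : 0 < a) (hδ : 0 < δ) : (fun τ : ℍ => f (affH a b δ τ)) ∈ MerInf (h * δ) := by
  obtain ⟨h1, h2, m, h3⟩ := mem_MerInf.mp hf
  have hδC : (δ : ℂ) ≠ 0 := Nat.cast_ne_zero.mpr hδ.ne'
  have hδR : (0 : ℝ) < δ := Nat.cast_pos.mpr hδ
  have haR : (0 : ℝ) < a := Nat.cast_pos.mpr ha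
  have hhR : (0 : ℝ) < h := Nat.cast_pos.mpr (Nat.pos_of_ne_zero (NeZero.ne h))
  refine mem_MerInf.mpr ⟨mdiff_comp_affH h1 b ha hδ, ?_, a * m, ?_⟩
  · apply Hol_periodic_of_forall
    intro τ τ' hτ
    have hper := (h2.nat_mul a) ((affH a b δ τ : ℍ) : ℂ)
    have e : ((affH a b δ τ' : ℍ) : ℂ) = ((affH a b δ τ : ℍ) : ℂ) + (a : ℂ) * ((h : ℝ) : ℂ) := by
      rw [coe_affH b ha hδ, coe_affH b ha hδ, hτ]
      push_cast
      field_simp
      ring
    rw [← e] at hper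
    simpa using hper
  · rw [isBoundedAtImInfty_iff] at h3 ⊢
    obtain ⟨M, A, hMA⟩ := h3
    refine ⟨M, A * δ / a, fun τ hτ => ?_⟩
    have him : A ≤ (affH a b δ τ).im := by
      have e : (affH a b δ τ).im = (a : ℝ) * τ.im / δ := MerAff_im_affH b ha hδ τ
      rw [e, le_div_iff₀ hδR]
      rw [div_le_iff₀ haR] at hτ
      linarith
    have key : ‖Function.Periodic.qParam ((h * δ : ℕ) : ℝ) (τ : ℂ)‖ ^ a =
        ‖Function.Periodic.qParam (h : ℝ) ((affH a b δ τ : ℍ) : ℂ)‖ := by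
      rw [Function.Periodic.norm_qParam, Function.Periodic.norm_qParam, ← Real.exp_nat_mul,
        MerAff_im_affH b ha hδ τ]
      congr 1
      push_cast
      have : (τ : ℂ).im = τ.im := rfl
      rw [this]
      field_simp
    have := hMA (affH a b δ τ) him
    rw [norm_mul, norm_pow] at this ⊢
    rw [pow_mul, key]
    exact this

/-- Hermite normal form. -/
theorem exists_hermite_int (A : Matrix (Fin 2) (Fin 2) ℤ) (hA : 0 < A.det) :
    ∃ (g : SL(2, ℤ)) (a δ : ℕ) (b : ℤ), 0 < a ∧ 0 < δ ∧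
      A = (g : Matrix (Fin 2) (Fin 2) ℤ) * !![(a : ℤ), b; 0, (δ : ℤ)] := by
  rw [Matrix.det_fin_two] at hA
  set x := A 0 0 with hx
  set y := A 0 1 with hy
  set z := A 1 0 with hz
  set w := A 1 1 with hw
  set d : ℕ := Int.gcd x z with hd
  have hd_pos : 0 < d := by
    rw [hd, Int.gcd_pos_iff]
    by_contra hcon
    rw [not_or, not_not, not_not] at hcon
    rw [hcon.1, hcon.2] at hA
    simp at hA
  have hdZ : (d : ℤ) ≠ 0 := by exact_mod_cast hd_pos.ne'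
  obtain ⟨x', hx'⟩ : (d : ℤ) ∣ x := Int.gcd_dvd_left _ _
  obtain ⟨z', hz'⟩ : (d : ℤ) ∣ z := Int.gcd_dvd_right _ _
  have hcop : IsCoprime x' z' := by
    have h2 := Int.isCoprime_iff_gcd_eq_one.mpr
      (Int.gcd_div_gcd_div_gcd (i := x) (j := z) (by rw [← hd]; exact hd_pos))
    rw [← hd] at h2
    have e1 : x / (d : ℤ) = x' := by
      rw [hx']; exact Int.mul_ediv_cancel_left _ hdZ
    have e2 : z / (d : ℤ) = z' := by
      rw [hz']; exact Int.mul_ediv_cancel_left _ hdZ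
    rwa [e1, e2] at h2
  obtain ⟨u, v, huv⟩ := hcop
  -- `u * x' + v * z' = 1`
  have hδ_pos : 0 < -z' * y + x' * w := by
    have h1 : (0 : ℤ) < d * (-z' * y + x' * w) := by
      have : (d : ℤ) * (-z' * y + x' * w) = x * w - y * z := by
        rw [hx', hz']; ring
      rw [this]; exact hA
    exact (pos_iff_pos_of_mul_pos h1).mp (by exact_mod_cast hd_pos)
  obtain ⟨δ, hδ⟩ : ∃ δ : ℕ, -z' * y + x' * w = δ :=
    ⟨(-z' * y + x' * w).toNat, (Int.toNat_of_nonneg hδ_pos.le).symm⟩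
  refine ⟨⟨!![x', -v; z', u], ?_⟩, d, δ, u * y + v * w, hd_pos, ?_, ?_⟩
  · rw [Matrix.det_fin_two_of]
    linear_combination huv
  · rw [hδ] at hδ_pos
    exact_mod_cast hδ_pos
  · rw [← hδ]
    ext i j
    fin_cases i <;> fin_cases j
    · simp [Matrix.mul_apply, Fin.sum_univ_two, ← hx, hx']
      ring
    · simp [Matrix.mul_apply, Fin.sum_univ_two, ← hy]
      linear_combination (-y) * huv
    · simp [Matrix.mul_apply, Fin.sum_univ_two, ← hz, hz']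
      ring
    · simp [Matrix.mul_apply, Fin.sum_univ_two, ← hw]
      linear_combination (-w) * huv

/-- the action on `ℍ` of an integral matrix of positive determinant. -/
theorem exists_smul_eq_affH (α : GL (Fin 2) ℝ) (A : Matrix (Fin 2) (Fin 2) ℤ)
    (hα : (α : Matrix (Fin 2) (Fin 2) ℝ) = A.map (Int.cast : ℤ → ℝ)) (hdet : 0 < A.det) :
    ∃ (g : SL(2, ℤ)) (a δ : ℕ) (b : ℤ), 0 < a ∧ 0 < δ ∧ ∀ τ : ℍ, α • τ = g • affH a b δ τ := by
  obtain ⟨g, a, δ, b, ha, hδ, hA⟩ := exists_hermite_int A hdet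
  refine ⟨g, a, δ, b, ha, hδ, fun τ => ?_⟩
  have hδC : (δ : ℂ) ≠ 0 := Nat.cast_ne_zero.mpr hδ.ne'
  have hαdet : 0 < α.det.val := by
    rw [Matrix.GeneralLinearGroup.val_det_apply, hα, Matrix.det_fin_two]
    rw [Matrix.det_fin_two] at hdet
    simp only [Matrix.map_apply]
    exact_mod_cast hdet
  have e00 : A 0 0 = g 0 0 * a := by
    rw [hA]; simp [Matrix.mul_apply, Fin.sum_univ_two]
  have e01 : A 0 1 = g 0 0 * b + g 0 1 * δ := by
    rw [hA]; simp [Matrix.mul_apply, Fin.sum_univ_two]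
  have e10 : A 1 0 = g 1 0 * a := by
    rw [hA]; simp [Matrix.mul_apply, Fin.sum_univ_two]
  have e11 : A 1 1 = g 1 0 * b + g 1 1 * δ := by
    rw [hA]; simp [Matrix.mul_apply, Fin.sum_univ_two]
  have hα' : ∀ i j, (α i j : ℝ) = (A i j : ℝ) := by
    intro i j
    have := congrFun (congrFun hα i) j
    simpa using this
  apply UpperHalfPlane.ext
  rw [coe_smul_of_det_pos hαdet, coe_specialLinearGroup_apply, coe_affH b ha hδ, num, denom,
    hα', hα', hα', hα', e00, e01, e10, e11]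
  simp only [algebraMap_int_eq, Int.coe_castRingHom]
  push_cast
  have n1 : ((g 0 0 : ℤ) : ℂ) * (((a : ℂ) * τ + b) / δ) + ((g 0 1 : ℤ) : ℂ) =
      (((g 0 0 : ℤ) : ℂ) * a * τ + (((g 0 0 : ℤ) : ℂ) * b + ((g 0 1 : ℤ) : ℂ) * δ)) / δ := by
    field_simp
    ring
  have n2 : ((g 1 0 : ℤ) : ℂ) * (((a : ℂ) * τ + b) / δ) + ((g 1 1 : ℤ) : ℂ) =
      (((g 1 0 : ℤ) : ℂ) * a * τ + (((g 1 0 : ℤ) : ℂ) * b + ((g 1 1 : ℤ) : ℂ) * δ)) / δ := by
    field_simp
    ring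
  rw [n1, n2, div_div_div_cancel_right₀ hδC]

/-- if all `SL₂(ℤ)`-translates of `f` are meromorphic at `∞` (level `h`), so are those of `f ∘ α`
(some level). -/
theorem exists_mem_MerInf_comp_smul {h : ℕ} [NeZero h] {f : ℍ → ℂ}
    (hf : ∀ γ : SL(2, ℤ), (fun τ : ℍ => f (γ • τ)) ∈ MerInf h)
    (α : GL (Fin 2) ℝ) (A : Matrix (Fin 2) (Fin 2) ℤ)
    (hα : (α : Matrix (Fin 2) (Fin 2) ℝ) = A.map (Int.cast : ℤ → ℝ)) (hdet : 0 < A.det)
    (γ : SL(2, ℤ)) :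
    ∃ δ : ℕ, 0 < δ ∧ (fun τ : ℍ => f (α • (γ • τ))) ∈ MerInf (h * δ) := by
  have hα2 : ((α * mapGL ℝ γ : GL (Fin 2) ℝ) : Matrix (Fin 2) (Fin 2) ℝ) =
      (A * (γ : Matrix (Fin 2) (Fin 2) ℤ)).map (Int.cast : ℤ → ℝ) := by
    rw [Matrix.GeneralLinearGroup.coe_mul, hα, mapGL_coe_matrix]
    have := Matrix.map_mul (L := A) (M := (γ : Matrix (Fin 2) (Fin 2) ℤ)) (f := Int.castRingHom ℝ)
    simpa using this.symm
  have hdet2 : 0 < (A * (γ : Matrix (Fin 2) (Fin 2) ℤ)).det := by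
    rw [Matrix.det_mul, γ.det_coe, mul_one]
    exact hdet
  obtain ⟨g, a, δ, b, ha, hδ, hg⟩ := exists_smul_eq_affH _ _ hα2 hdet2
  refine ⟨δ, hδ, ?_⟩
  have e : (fun τ : ℍ => f (α • (γ • τ))) = fun τ : ℍ => (fun w : ℍ => f (g • w)) (affH a b δ τ) := by
    funext τ
    have e1 : γ • τ = (mapGL ℝ γ : GL (Fin 2) ℝ) • τ := rfl
    simp only
    rw [e1, ← mul_smul, hg]
  rw [e]
  exact mem_MerInf_comp_affH (hf g) b ha hδ

end Fermat.Agent.GR.B
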