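import Fermat.Agent.GR.B.ESDefs
import Fermat.Agent.S49.Normalize
import Fermat.Prelude.Thm_ModularFormClass_qCoeff_heckeT
import Fermat.Prelude.Thm_ModularFormClass_qCoeff_heckeU
import Fermat.Prelude.Thm_UpperHalfPlane_eq_of_forall_qCoeff_eq
import Fermat.Prelude.Thm_CongruenceSubgroup_one_mem_strictPeriods_Gamma0

/-!
# GR-B, file 6c (task B-ES2): multiplicity one for the full Hecke algebra
-/

set_option autoImplicit false

open CongruenceSubgroup Matrix.SpecialLinearGroup UpperHalfPlane ModularCurve ModularCurve.Period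
open scoped MatrixGroups ModularForm

namespace Fermat.Agent.GR.B

variable (N : ℕ) [NeZero N]

/-! ### B-ES2 : multiplicity one -/

/-- the `q`-coefficients of `heckeP f`. -/
theorem MultOne_qCoeff_heckeP {p : ℕ} (hp : p.Prime) (f : CuspForm (Gamma0 N) 2) (n : ℕ) :
    ModularFormClass.qCoeff (heckeP N p hp f) n =
      ModularFormClass.qCoeff f (p * n) + (if p ∣ N then 0 else (p : ℂ)) *
        (if p ∣ n then ModularFormClass.qCoeff f (n / p) else 0) := by
  by_cases h : p ∣ N
  · rw [heckeP_of_dvd N hp h, S49.qCoeff_heckeULin hp.ne_zero h, if_pos h, zero_mul, add_zero,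
      mul_comm]
  · rw [heckeP_of_not_dvd N hp h, S49.qCoeff_heckeTLin hp h, if_neg h, mul_comm n p]
    congr 1
    split_ifs
    · norm_num
    · simp

/-- `q`-expansion principle for simultaneous eigenforms of ALL `T_p`, `U_p`. -/
theorem eq_zero_of_mem_cuspEigen (lam : ℕ → ℂ) (f : CuspForm (Gamma0 N) 2)
    (hf : f ∈ cuspEigen N lam) (h1 : ModularFormClass.qCoeff f 1 = 0) : f = 0 := by
  apply S49.eq_zero_of_qCoeff
  have hrel : ∀ ℓ : ℕ, ℓ.Prime → ∀ n : ℕ,
      ModularFormClass.qCoeff f (ℓ * n) + (if ℓ ∣ N then 0 else (ℓ : ℂ)) *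
        (if ℓ ∣ n then ModularFormClass.qCoeff f (n / ℓ) else 0) =
        lam ℓ * ModularFormClass.qCoeff f n := by
    intro ℓ hℓ n
    rw [← MultOne_qCoeff_heckeP N hℓ f n, hf ℓ hℓ, S49.qCoeff_smul]
  intro n
  rcases Nat.eq_zero_or_pos n with rfl | hn
  · exact S49.qCoeff_idx_zero f
  · exact S49.formal_eq_zero_of_one (e := fun ℓ => if ℓ ∣ N then 0 else (ℓ : ℂ)) (lam := lam)
      (c := fun n => ModularFormClass.qCoeff f n) hrel h1 n hn

theorem finrank_cuspEigen_le_one (lam : ℕ → ℂ) : Module.finrank ℂ (cuspEigen N lam) ≤ 1 := by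
  let φ : cuspEigen N lam →ₗ[ℂ] ℂ :=
    { toFun := fun f => ModularFormClass.qCoeff (f : CuspForm (Gamma0 N) 2) 1
      map_add' := fun f g => S49.qCoeff_add _ _ 1
      map_smul' := fun c f => S49.qCoeff_smul c _ 1 }
  have hinj : Function.Injective φ := by
    rw [← LinearMap.ker_eq_bot, LinearMap.ker_eq_bot']
    intro f hf
    exact Subtype.ext (eq_zero_of_mem_cuspEigen N lam f f.2 hf)
  have := LinearMap.finrank_le_finrank_of_injective hinj
  simpa using this

/-- a normalised eigenform in the sense of the Prelude is a simultaneous eigenvector. -/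
theorem mem_cuspEigen_of_isNormalizedEigenform (g : CuspForm (Gamma0 N) 2)
    (hg : g.IsNormalizedEigenform) :
    g ∈ cuspEigen N (fun p => ModularFormClass.qCoeff g p) := by
  intro p hp
  rw [← sub_eq_zero]
  apply S49.eq_zero_of_qCoeff
  intro n
  rw [S49.qCoeff_sub, S49.qCoeff_smul, MultOne_qCoeff_heckeP, sub_eq_zero]
  rcases Nat.eq_zero_or_pos n with rfl | hn
  · simp [S49.qCoeff_idx_zero]
  obtain ⟨r, m, hm, rfl⟩ := Nat.exists_eq_pow_mul_and_not_dvd hn.ne' p hp.ne_one
  have hcop : ∀ k : ℕ, (p ^ k).Coprime m := fun k =>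
    Nat.Coprime.pow_left k ((Nat.Prime.coprime_iff_not_dvd hp).mpr hm)
  have e1 : p * (p ^ r * m) = p ^ (r + 1) * m := by ring
  rw [e1, hg.qCoeff_mul_of_coprime _ _ (hcop (r + 1)), hg.qCoeff_mul_of_coprime _ _ (hcop r)]
  rcases r with _ | r
  · have hnd : ¬ p ∣ p ^ 0 * m := by simpa using hm
    rw [if_neg hnd, mul_zero, add_zero, zero_add, pow_one, pow_zero, hg.qCoeff_one, one_mul]
  · have hd : p ∣ p ^ (r + 1) * m := Dvd.dvd.mul_right (dvd_pow_self p (Nat.succ_ne_zero r)) m
    have hq : p ^ (r + 1) * m / p = p ^ r * m := by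
      rw [pow_succ, mul_assoc, mul_comm p m, ← mul_assoc]
      exact Nat.mul_div_cancel _ hp.pos
    rw [if_pos hd, hq, hg.qCoeff_mul_of_coprime _ _ (hcop r)]
    by_cases h : p ∣ N
    · rw [if_pos h, zero_mul, add_zero, hg.qCoeff_prime_pow_of_dvd p r hp h]
      ring
    · rw [if_neg h, hg.qCoeff_prime_pow_of_not_dvd p r hp h]
      ring

end Fermat.Agent.GR.B
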