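import Mathlib
import Fermat.Prelude.Def_ModularCurve_PeriodHomPair

/-!
# GR-B, file 1: abstract Hecke correspondences on `Γ₀(N)` and their action on `Hom(Γ₀(N), M)`

A `Reps N` is a finite family of real matrices `α i` of positive determinant which is permuted by
right multiplication by `Γ₀(N)` modulo left multiplication by `Γ₀(N)`:
`α i * γ = coc γ i * α (perm γ i)`.  It acts on `Hom(Γ₀(N), M)` by the transfer formula
`(T φ)(γ) = ∑ i, φ (coc γ i)`.
-/

set_option autoImplicit false

open CongruenceSubgroup Matrix.SpecialLinearGroup UpperHalfPlane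
open scoped MatrixGroups

namespace Fermat.Agent.GR.B

/-- A Hecke correspondence on `Γ₀(N)`, given by explicit coset representatives. -/
structure Reps (N : ℕ) where
  ι : Type
  fin : Fintype ι
  α : ι → GL (Fin 2) ℝ
  det_pos : ∀ i, 0 < ((α i).det : ℝ)
  perm : Gamma0 N → Equiv.Perm ι
  coc : Gamma0 N → ι → Gamma0 N
  rel : ∀ (γ : Gamma0 N) (i : ι), α i * mapGL ℝ (γ : SL(2, ℤ)) = mapGL ℝ (coc γ i : SL(2, ℤ)) * α (perm γ i)
  perm_mul : ∀ (γ γ' : Gamma0 N) (i : ι), perm (γ * γ') i = perm γ' (perm γ i)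

attribute [instance] Reps.fin

variable {N : ℕ} (H : Reps N)

namespace Reps

theorem coc_mul (γ γ' : Gamma0 N) (i : H.ι) :
    H.coc (γ * γ') i = H.coc γ i * H.coc γ' (H.perm γ i) := by
  have h1 := H.rel (γ * γ') i
  have h2 := H.rel γ i
  have h3 := H.rel γ' (H.perm γ i)
  rw [H.perm_mul] at h1
  have h4 : mapGL ℝ ((H.coc (γ * γ') i : Gamma0 N) : SL(2, ℤ)) =
      mapGL ℝ (((H.coc γ i * H.coc γ' (H.perm γ i) : Gamma0 N)) : SL(2, ℤ)) := by
    apply mul_right_cancel (b := H.α (H.perm γ' (H.perm γ i)))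
    rw [← h1, Subgroup.coe_mul, Subgroup.coe_mul, map_mul, map_mul, ← mul_assoc, h2, mul_assoc, h3,
      mul_assoc]
  exact Subtype.ext (mapGL_injective h4)

/-- The Hecke operator on `Hom(Γ₀(N), M)` (transfer formula). -/
def op (M : Type*) [AddCommGroup M] :
    (Additive (Gamma0 N) →+ M) →+ (Additive (Gamma0 N) →+ M) where
  toFun φ :=
    { toFun := fun γ => ∑ i, φ (Additive.ofMul (H.coc (Additive.toMul γ) i))
      map_zero' := by
        have key : ∀ i, H.coc 1 i = 1 := by
          intro i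
          have hp : H.perm 1 = 1 := by
            ext j
            have := H.perm_mul 1 1 ((H.perm 1).symm j)
            rw [mul_one] at this
            simpa using this.symm
          have := H.coc_mul 1 1 i
          rw [mul_one, hp] at this
          simpa using this
        simp [key]
      map_add' := by
        intro γ γ'
        have h1 : ∀ i, φ (Additive.ofMul (H.coc (Additive.toMul (γ + γ')) i)) =
            φ (Additive.ofMul (H.coc (Additive.toMul γ) i)) +
              φ (Additive.ofMul (H.coc (Additive.toMul γ') (H.perm (Additive.toMul γ) i))) := by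
          intro i
          rw [toMul_add, H.coc_mul, ofMul_mul, map_add]
        simp only [h1, Finset.sum_add_distrib]
        congr 1
        exact Equiv.sum_comp (H.perm (Additive.toMul γ))
          (fun i => φ (Additive.ofMul (H.coc (Additive.toMul γ') i))) }
  map_zero' := by
    ext γ
    simp
  map_add' φ ψ := by
    ext γ
    simp [Finset.sum_add_distrib]

@[simp] theorem op_apply {M : Type*} [AddCommGroup M] (φ : Additive (Gamma0 N) →+ M)
    (γ : Gamma0 N) :
    H.op M φ (Additive.ofMul γ) = ∑ i, φ (Additive.ofMul (H.coc γ i)) := rfl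

/-- naturality in the coefficient group. -/
theorem op_comp {M M' : Type*} [AddCommGroup M] [AddCommGroup M'] (g : M →+ M')
    (φ : Additive (Gamma0 N) →+ M) : H.op M' (g.comp φ) = g.comp (H.op M φ) := by
  ext γ
  induction γ using Additive.rec with
  | ofMul γ => simp

/-- the `R`-linear version. -/
def opLin (R : Type*) [Semiring R] (M : Type*) [AddCommGroup M] [Module R M] :
    (Additive (Gamma0 N) →+ M) →ₗ[R] (Additive (Gamma0 N) →+ M) where
  toFun := H.op M
  map_add' := map_add _
  map_smul' c φ := by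
    ext γ
    induction γ using Additive.rec with
    | ofMul γ => simp [Finset.smul_sum]

@[simp] theorem opLin_apply (R : Type*) [Semiring R] (M : Type*) [AddCommGroup M] [Module R M]
    (φ : Additive (Gamma0 N) →+ M) : H.opLin R M φ = H.op M φ := rfl

/-- TRANSFER FORMULA, additive form: if `G (γ z) = G z + φ γ` then `z ↦ ∑ i, G (α i z)` has the
"period" `T φ`. -/
theorem sum_comp_smul {M : Type*} [AddCommGroup M] (φ : Additive (Gamma0 N) →+ M) (G : ℍ → M)
    (hG : ∀ (γ : Gamma0 N) (z : ℍ), G ((γ : SL(2, ℤ)) • z) = G z + φ (Additive.ofMul γ))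
    (γ : Gamma0 N) (z : ℍ) :
    ∑ i, G (H.α i • ((γ : SL(2, ℤ)) • z)) = ∑ i, G (H.α i • z) + H.op M φ (Additive.ofMul γ) := by
  have h1 : ∀ i, G (H.α i • ((γ : SL(2, ℤ)) • z)) =
      G (H.α (H.perm γ i) • z) + φ (Additive.ofMul (H.coc γ i)) := by
    intro i
    have h2 : H.α i • ((γ : SL(2, ℤ)) • z) =
        ((H.coc γ i : Gamma0 N) : SL(2, ℤ)) • (H.α (H.perm γ i) • z) := by
      have e1 : ∀ (g : SL(2, ℤ)) (w : ℍ), g • w = (mapGL ℝ g : GL (Fin 2) ℝ) • w := fun _ _ => rfl
      rw [e1, e1, ← mul_smul, ← mul_smul, H.rel]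
    rw [h2, hG]
  simp only [h1, Finset.sum_add_distrib, op_apply]
  congr 1
  exact Equiv.sum_comp (H.perm γ) (fun i => G (H.α i • z))

/-- TRANSFER FORMULA, multiplicative form (values in a commutative monoid with a character). -/
theorem prod_comp_smul {M : Type*} [AddCommGroup M] {C : Type*} [CommMonoid C]
    (e : Multiplicative M →* C) (φ : Additive (Gamma0 N) →+ M) (v : ℍ → C)
    (hv : ∀ (γ : Gamma0 N) (z : ℍ),
      v ((γ : SL(2, ℤ)) • z) = e (Multiplicative.ofAdd (φ (Additive.ofMul γ))) * v z)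
    (γ : Gamma0 N) (z : ℍ) :
    ∏ i, v (H.α i • ((γ : SL(2, ℤ)) • z)) =
      e (Multiplicative.ofAdd (H.op M φ (Additive.ofMul γ))) * ∏ i, v (H.α i • z) := by
  have h1 : ∀ i, v (H.α i • ((γ : SL(2, ℤ)) • z)) =
      e (Multiplicative.ofAdd (φ (Additive.ofMul (H.coc γ i)))) * v (H.α (H.perm γ i) • z) := by
    intro i
    have h2 : H.α i • ((γ : SL(2, ℤ)) • z) =
        ((H.coc γ i : Gamma0 N) : SL(2, ℤ)) • (H.α (H.perm γ i) • z) := by
      have e1 : ∀ (g : SL(2, ℤ)) (w : ℍ), g • w = (mapGL ℝ g : GL (Fin 2) ℝ) • w := fun _ _ => rfl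
      rw [e1, e1, ← mul_smul, ← mul_smul, H.rel]
    rw [h2, hv]
  simp only [h1, Finset.prod_mul_distrib, op_apply, ofAdd_sum, map_prod]
  congr 1
  exact Equiv.prod_comp (H.perm γ) (fun i => v (H.α i • z))

end Reps

end Fermat.Agent.GR.B
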